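/-
S25 / block X (Riemann-Roch-lite over fields, covering lemma): DEFINITIONS.   Owner: helper177.
FROZEN INTERFACE (definitions only, no sorry).

* `secHom T s : Hom (unit 𝔠 A) T`          the morphism `𝒪 → T` given by a global section `s`
* `Idiv.incl I`, `Odiv I`, `Idiv.proj I`    `0 → 𝒪(-D) → 𝒪 → 𝒪_D → 0`, `D = V(I) ⊆ W₁ × Spec A`
* `Idiv₂.incl I`, `Odiv₂ I`, `Idiv₂.proj I` the same for `V(I) ⊆ W₂ × Spec A`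
* `Otw.step j`, `Oinf j`, `Otw.proj j`      `0 → 𝒪(j D_∞) → 𝒪((j+1) D_∞) → 𝒪_{D_∞} → 0`
(`Triple.deg`, `CurveCharts.degInf` are in `Charts/Defs.lean`.)
* `kpt A r`                                 the constant `A`-point attached to a `k`-point of `W₁`
* `T.ptw l = T(-Σ_{σ ∈ l} σ)`, `Ftw A m l = 𝒪(m D_∞ - Σ_{r ∈ l} r)`
-/
import Fermat.Agent.S25.Triple.Div
import Fermat.Agent.S25.Triple.Tensor
import Fermat.Agent.S25.Triple.Exact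
import Fermat.Agent.S25.Charts.Defs

set_option autoImplicit false

universe u

open scoped TensorProduct

namespace Fermat.Agent.S25.Triple

variable {k : Type u} [Field k] {𝔠 : CurveCharts k} {A : Type u} [CommRing A] [Algebra k A]

/-! ### sections -/

lemma H0.ρ_eq {T : Triple 𝔠 A} (s : T.H0) : T.ρ₁ s.1.1 = T.ρ₂ s.1.2 := by
  have h : T.δ s.1 = 0 := s.2
  rw [δ_apply] at h
  exact sub_eq_zero.1 h

/-- The morphism `𝒪 → T`, `1 ↦ s`, attached to a global section `s` of `T`. -/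
noncomputable def secHom (T : Triple 𝔠 A) (s : T.H0) : Hom (unit 𝔠 A) T where
  f₁ := LinearMap.toSpanSingleton (𝔠.R₁ A) T.N₁ s.1.1
  f₂ := LinearMap.toSpanSingleton (𝔠.R₂ A) T.N₂ s.1.2
  f₁₂ := LinearMap.toSpanSingleton (𝔠.R₁₂ A) T.N₁₂ (T.ρ₁ s.1.1)
  comm₁ := fun (r : 𝔠.R₁ A) => by
    change (𝔠.res₁ A r) • T.ρ₁ s.1.1 = T.ρ₁ (r • s.1.1)
    rw [T.ρ₁.map_smulₛₗ]
    rfl
  comm₂ := fun (r : 𝔠.R₂ A) => by
    change (𝔠.res₂ A r) • T.ρ₁ s.1.1 = T.ρ₂ (r • s.1.2)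
    rw [T.ρ₂.map_smulₛₗ, H0.ρ_eq s]
    rfl

@[simp] lemma secHom_f₁ (T : Triple 𝔠 A) (s : T.H0) (r : 𝔠.R₁ A) :
    (T.secHom s).f₁ r = r • s.1.1 := rfl
@[simp] lemma secHom_f₂ (T : Triple 𝔠 A) (s : T.H0) (r : 𝔠.R₂ A) :
    (T.secHom s).f₂ r = r • s.1.2 := rfl
@[simp] lemma secHom_f₁₂ (T : Triple 𝔠 A) (s : T.H0) (r : 𝔠.R₁₂ A) :
    (T.secHom s).f₁₂ r = r • T.ρ₁ s.1.1 := rfl

/-- The cokernel `T / 𝒪·s` of a section. -/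
noncomputable def secQuot (T : Triple 𝔠 A) (s : T.H0) : Triple 𝔠 A :=
  T.quot (LinearMap.range (T.secHom s).f₁) (LinearMap.range (T.secHom s).f₂)
    (LinearMap.range (T.secHom s).f₁₂)
    (by rintro _ ⟨r, rfl⟩; exact ⟨_, (T.secHom s).comm₁ r⟩)
    (by rintro _ ⟨r, rfl⟩; exact ⟨_, (T.secHom s).comm₂ r⟩)

/-- The projection `T → T / 𝒪·s`. -/
noncomputable def secProj (T : Triple 𝔠 A) (s : T.H0) : Hom T (T.secQuot s) :=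
  T.quotHom _ _ _ _ _

/-! ### `0 → 𝒪(-D) → 𝒪 → 𝒪_D → 0` -/

/-- the ideal of `D ∩ (W₁₂ × Spec A)` -/
noncomputable abbrev I₁₂ (I : Ideal (𝔠.R₁ A)) : Ideal (𝔠.R₁₂ A) := I.map (𝔠.res₁ A).toRingHom
/-- the ideal of `D ∩ (W₂ × Spec A)` -/
noncomputable abbrev I₂ (I : Ideal (𝔠.R₁ A)) : Ideal (𝔠.R₂ A) := (I₁₂ I).comap (𝔠.res₂ A).toRingHom

/-- The inclusion `𝒪(-D) → 𝒪`. -/
noncomputable def Idiv.incl (I : Ideal (𝔠.R₁ A)) : Hom (Idiv I) (unit 𝔠 A) where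
  f₁ := Submodule.subtype I
  f₂ := Submodule.subtype (I₂ I)
  f₁₂ := Submodule.subtype (I₁₂ I)
  comm₁ _ := rfl
  comm₂ _ := rfl

/-- The structure sheaf `𝒪_D` of `D = V(I) ⊆ W₁ × Spec A`. -/
noncomputable def Odiv (I : Ideal (𝔠.R₁ A)) : Triple 𝔠 A :=
  (unit 𝔠 A).quot I (I₂ I) (I₁₂ I)
    (fun (n : 𝔠.R₁ A) (hn : n ∈ I) => Ideal.mem_map_of_mem (𝔠.res₁ A).toRingHom hn)
    (fun (_ : 𝔠.R₂ A) hn => hn)

/-- The projection `𝒪 → 𝒪_D`. -/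
noncomputable def Idiv.proj (I : Ideal (𝔠.R₁ A)) : Hom (unit 𝔠 A) (Odiv I) :=
  (unit 𝔠 A).quotHom _ _ _ _ _

lemma Idiv.shortExact (I : Ideal (𝔠.R₁ A)) : ShortExact (Idiv.incl I) (Idiv.proj I) :=
  shortExact_sub_quot (unit 𝔠 A) I (I₂ I) (I₁₂ I) _ _

/-- the ideal of `D ∩ (W₁₂ × Spec A)`, `D = V(J) ⊆ W₂ × Spec A` -/
noncomputable abbrev J₁₂ (J : Ideal (𝔠.R₂ A)) : Ideal (𝔠.R₁₂ A) := J.map (𝔠.res₂ A).toRingHom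
/-- the ideal of `D ∩ (W₁ × Spec A)` -/
noncomputable abbrev J₁ (J : Ideal (𝔠.R₂ A)) : Ideal (𝔠.R₁ A) := (J₁₂ J).comap (𝔠.res₁ A).toRingHom

/-- The inclusion `𝒪(-D) → 𝒪`, `D = V(J) ⊆ W₂ × Spec A`. -/
noncomputable def Idiv₂.incl (J : Ideal (𝔠.R₂ A)) : Hom (Idiv₂ J) (unit 𝔠 A) where
  f₁ := Submodule.subtype (J₁ J)
  f₂ := Submodule.subtype J
  f₁₂ := Submodule.subtype (J₁₂ J)
  comm₁ _ := rfl
  comm₂ _ := rfl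

/-- The structure sheaf of `V(J) ⊆ W₂ × Spec A`. -/
noncomputable def Odiv₂ (J : Ideal (𝔠.R₂ A)) : Triple 𝔠 A :=
  (unit 𝔠 A).quot (J₁ J) J (J₁₂ J) (fun (_ : 𝔠.R₁ A) hn => hn)
    (fun (n : 𝔠.R₂ A) (hn : n ∈ J) => Ideal.mem_map_of_mem (𝔠.res₂ A).toRingHom hn)

/-- The projection `𝒪 → 𝒪_D`. -/
noncomputable def Idiv₂.proj (J : Ideal (𝔠.R₂ A)) : Hom (unit 𝔠 A) (Odiv₂ J) :=
  (unit 𝔠 A).quotHom _ _ _ _ _

lemma Idiv₂.shortExact (J : Ideal (𝔠.R₂ A)) : ShortExact (Idiv₂.incl J) (Idiv₂.proj J) :=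
  shortExact_sub_quot (unit 𝔠 A) (J₁ J) J (J₁₂ J) _ _

/-! ### `0 → 𝒪(j D_∞) → 𝒪((j+1) D_∞) → 𝒪_{D_∞} → 0` -/

variable (𝔠 A)

/-- The inclusion `𝒪(j D_∞) → 𝒪((j+1) D_∞)`: identity on `W₁`, multiplication by `y` on `W₂`. -/
noncomputable def Otw.step (j : ℕ) : Hom (Otw 𝔠 A j) (Otw 𝔠 A (j + 1)) where
  f₁ := LinearMap.id
  f₂ := LinearMap.toSpanSingleton (𝔠.R₂ A) (𝔠.R₂ A) (𝔠.yA A)
  f₁₂ := LinearMap.id
  comm₁ _ := rfl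
  comm₂ := fun (r : 𝔠.R₂ A) => by
    change (𝔠.res₁ A (𝔠.xA A)) ^ j * 𝔠.res₂ A r =
      (𝔠.res₁ A (𝔠.xA A)) ^ (j + 1) * 𝔠.res₂ A (r * 𝔠.yA A)
    rw [map_mul, pow_succ]
    have h : 𝔠.res₁ A (𝔠.xA A) * 𝔠.res₂ A (𝔠.yA A) = 1 := TensorAux.res₁_xA_mul_res₂_yA 𝔠 A
    calc (𝔠.res₁ A (𝔠.xA A)) ^ j * 𝔠.res₂ A r
        = (𝔠.res₁ A (𝔠.xA A)) ^ j * 𝔠.res₂ A r * (𝔠.res₁ A (𝔠.xA A) * 𝔠.res₂ A (𝔠.yA A)) := by
          rw [h, mul_one]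
      _ = _ := by ring

/-- The cokernel of `Otw.step j`: `(0, R₂ / y, 0)`. -/
noncomputable def Oinf (j : ℕ) : Triple 𝔠 A :=
  (Otw 𝔠 A (j + 1)).quot ⊤ (Ideal.span {𝔠.yA A} : Ideal (𝔠.R₂ A)) ⊤
    (fun _ _ => Submodule.mem_top) (fun _ _ => Submodule.mem_top)

/-- The projection `𝒪((j+1) D_∞) → 𝒪_{D_∞}`. -/
noncomputable def Otw.proj (j : ℕ) : Hom (Otw 𝔠 A (j + 1)) (Oinf 𝔠 A j) :=
  (Otw 𝔠 A (j + 1)).quotHom _ _ _ _ _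

variable {𝔠 A}

end Triple

namespace Triple

variable {k : Type u} [Field k] {𝔠 : CurveCharts k} (A : Type u) [CommRing A] [Algebra k A]

/-- The constant `A`-valued point attached to a `k`-point of `W₁`. -/
noncomputable def kpt (r : 𝔠.B₁ →ₐ[k] k) : 𝔠.B₁ →ₐ[k] A := (Algebra.ofId k A).comp r

variable {A}

/-- `T(-Σ_{σ ∈ l} σ)` for a list `l` of `A`-points of `W₁`. -/
noncomputable def ptw (T : Triple 𝔠 A) : List (𝔠.B₁ →ₐ[k] A) → Triple 𝔠 A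
  | [] => T
  | σ :: l => (ptw T l).tensor (Ipt σ)

@[simp] lemma ptw_nil (T : Triple 𝔠 A) : T.ptw [] = T := rfl
@[simp] lemma ptw_cons (T : Triple 𝔠 A) (σ : 𝔠.B₁ →ₐ[k] A) (l : List (𝔠.B₁ →ₐ[k] A)) :
    T.ptw (σ :: l) = (T.ptw l).tensor (Ipt σ) := rfl

variable (A)

/-- `𝒪(m D_∞ - Σ_{r ∈ l} r)` on `C × Spec A`, for a list `l` of `k`-points of `W₁`. -/
noncomputable def Ftw (m : ℕ) (l : List (𝔠.B₁ →ₐ[k] k)) : Triple 𝔠 A :=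
  (Otw 𝔠 A m).ptw (l.map (kpt A))

end Triple

end Fermat.Agent.S25
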