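/-
S25 / block X: common imports of the files `RR/*.lean` (no declarations).   Owner: helper177.
-/
import Fermat.Agent.S25.RR.Defs
import Fermat.Agent.S25.Triple.TensorExact
import Fermat.Agent.S25.Triple.IdealSMul
import Fermat.Agent.S25.Triple.IsoLemmas
import Fermat.Agent.S25.Triple.QC
import Fermat.Agent.S25.Triple.IHom
import Fermat.Agent.S25.Alg.Dedekind
import Fermat.Agent.S25.Alg.Points
import Fermat.Agent.S25.TripleFinite
import Fermat.Agent.S25.P1Lattice
import Fermat.Agent.S25.FiniteModelLemmas
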