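/-
S25 / block X, section X1 (second half), task S25-X1b.
Finite-dimensionality of torsion quotients; invertible modules over a domain have rank one.
-/
import Mathlib

set_option autoImplicit false

open scoped TensorProduct
open Function

namespace Fermat.Agent.S25.RR

/-- A finite module killed by an ideal of finite codimension is finite-dimensional. -/
theorem artinB_finite_of_torsionBySet {K A M : Type*} [Field K] [CommRing A] [Algebra K A]
    [AddCommGroup M] [Module A M] [Module K M] [IsScalarTower K A M] [Module.Finite A M]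
    (J : Ideal A) [Module.Finite K (A ⧸ J)] (h : ∀ a ∈ J, ∀ m : M, a • m = 0) :
    Module.Finite K M := by
  have hM : Module.IsTorsionBySet A M J := fun m a => h a.1 a.2 m
  letI : Module (A ⧸ J) M := hM.module
  haveI : IsScalarTower K (A ⧸ J) M := hM.isScalarTower
  haveI : IsScalarTower A (A ⧸ J) M := hM.isScalarTower
  haveI : Module.Finite (A ⧸ J) M := Module.Finite.of_restrictScalars_finite A (A ⧸ J) M
  exact Module.Finite.trans (A ⧸ J) M

/-- A nonzero ideal of `K[X]` has finite codimension. -/
theorem artinB_finite_polynomial_quotient {K : Type*} [Field K] (J : Ideal (Polynomial K))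
    (hJ : J ≠ ⊥) : Module.Finite K (Polynomial K ⧸ J) := by
  obtain ⟨p, rfl⟩ : ∃ p, J = Ideal.span {p} :=
    ⟨_, (Ideal.span_singleton_generator J).symm⟩
  have hp : p ≠ 0 := by
    rintro rfl
    exact hJ (by simp)
  exact (AdjoinRoot.powerBasis hp).finite

theorem finite_quotient_of_ne_bot {K R : Type*} [Field K] [CommRing R] [IsDomain R] [Algebra K R]
    (x : R) (hfin : (Polynomial.aeval (R := K) x).toRingHom.Finite) (I : Ideal R) (hI : I ≠ ⊥) :
    Module.Finite K (R ⧸ I) := by
  letI : Algebra (Polynomial K) R := (Polynomial.aeval (R := K) x).toRingHom.toAlgebra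
  haveI : Module.Finite (Polynomial K) R := hfin
  haveI : IsScalarTower K (Polynomial K) R := IsScalarTower.of_algebraMap_eq fun c => by
    change algebraMap K R c = Polynomial.aeval x (algebraMap K (Polynomial K) c)
    rw [Polynomial.algebraMap_eq, Polynomial.aeval_C]
  obtain ⟨a, haI, ha0⟩ := Submodule.exists_mem_ne_zero_of_ne_bot hI
  have hJ : I.comap (algebraMap (Polynomial K) R) ≠ ⊥ :=
    Ideal.comap_ne_bot_of_integral_mem ha0 haI (Algebra.IsIntegral.isIntegral a)
  haveI := artinB_finite_polynomial_quotient _ hJ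
  refine artinB_finite_of_torsionBySet (A := Polynomial K) (M := R ⧸ I)
    (I.comap (algebraMap (Polynomial K) R)) ?_
  intro p hp m
  obtain ⟨r, rfl⟩ := Ideal.Quotient.mk_surjective m
  rw [← Ideal.Quotient.mk_eq_mk, ← Submodule.Quotient.mk_smul, Ideal.Quotient.mk_eq_mk,
    Ideal.Quotient.eq_zero_iff_mem, Algebra.smul_def]
  exact I.mul_mem_right _ (Ideal.mem_comap.1 hp)

theorem finite_of_smul_eq_zero {K R M : Type*} [Field K] [CommRing R] [IsDomain R] [Algebra K R]
    (x : R) (hfin : (Polynomial.aeval (R := K) x).toRingHom.Finite)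
    [AddCommGroup M] [Module R M] [Module K M] [IsScalarTower K R M] [Module.Finite R M]
    (a : R) (ha : a ≠ 0) (h : ∀ m : M, a • m = 0) : Module.Finite K M := by
  haveI : Module.Finite K (R ⧸ Ideal.span {a}) :=
    finite_quotient_of_ne_bot x hfin _ (by simpa using ha)
  refine artinB_finite_of_torsionBySet (A := R) (Ideal.span {a}) ?_
  intro b hb m
  obtain ⟨c, rfl⟩ := Ideal.mem_span_singleton'.1 hb
  rw [mul_smul, h, smul_zero]

/-- a projective module embeds in a free module -/
theorem artinB_exists_dual_ne_zero {R N : Type*} [CommRing R] [AddCommGroup N]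
    [Module R N] [Module.Projective R N] (s : N) (hs : s ≠ 0) :
    ∃ φ : N →ₗ[R] R, φ s ≠ 0 := by
  obtain ⟨i, hi⟩ := Module.projective_def'.1 (inferInstance : Module.Projective R N)
  have h1 : i s ≠ 0 := by
    intro h0
    have h3 := LinearMap.congr_fun hi s
    simp only [LinearMap.comp_apply, LinearMap.id_apply] at h3
    rw [h0, map_zero] at h3
    exact hs h3.symm
  obtain ⟨y, hy⟩ := Finsupp.ne_iff.1 h1
  exact ⟨(Finsupp.lapply y).comp i, by simpa using hy⟩

theorem eq_zero_or_eq_zero_of_smul_eq_zero {R N : Type*} [CommRing R] [IsDomain R] [AddCommGroup N]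
    [Module R N] [Module.Invertible R N] (a : R) (n : N) (h : a • n = 0) : a = 0 ∨ n = 0 := by
  by_contra hcon
  push_neg at hcon
  obtain ⟨φ, hφ⟩ := artinB_exists_dual_ne_zero (R := R) n hcon.2
  have : a * φ n = 0 := by rw [← smul_eq_mul, ← map_smul, h, map_zero]
  rcases mul_eq_zero.1 this with h1 | h1
  · exact hcon.1 h1
  · exact hφ h1

/-- An invertible module over a domain has rank one. -/
theorem exists_ne_zero_forall_smul_mem_span {R N : Type*} [CommRing R] [IsDomain R]
    [AddCommGroup N] [Module R N] [Module.Invertible R N] (s : N) (hs : s ≠ 0) :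
    ∃ a : R, a ≠ 0 ∧ ∀ n : N, a • n ∈ Submodule.span R {s} := by
  obtain ⟨φ, hφ⟩ := artinB_exists_dual_ne_zero (R := R) s hs
  refine ⟨φ s, hφ, fun n => ?_⟩
  let Φ : N ⊗[R] N →ₗ[R] N := TensorProduct.lift ((LinearMap.lsmul R N).comp φ)
  have h1 : Φ (s ⊗ₜ[R] n) = Φ (n ⊗ₜ[R] s) := by rw [Module.Invertible.tmul_comm]
  have h2 : φ s • n = φ n • s := by simpa [Φ] using h1
  rw [h2]
  exact Submodule.smul_mem _ _ (Submodule.mem_span_singleton_self s)

end Fermat.Agent.S25.RR
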