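/-
S25 / block X, section X5: `Idiv`/`Odiv` are quasi-coherent; a divisor finite over `A` does not meet
`y = 0`; `ρ₂` is then bijective (any base ring `A`).
-/
import Fermat.Agent.S25.RR.Defs
import Fermat.Agent.S25.Triple.IdealSMul
import Fermat.Agent.S25.Triple.QC

set_option autoImplicit false

universe u

open scoped TensorProduct
open Function

namespace Fermat.Agent.S25.RR

open Triple

variable {k : Type u} [Field k] {𝔠 : CurveCharts k}

section X5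

variable {A : Type u} [CommRing A] [Algebra k A]

namespace Odiv

theorem map_comap_res₂ (J : Ideal (𝔠.R₁₂ A)) :
    (J.comap (𝔠.res₂ A).toRingHom).map (𝔠.res₂ A) = J := by
  apply le_antisymm
  · exact Ideal.map_comap_le
  · intro s hs
    obtain ⟨m, r, hr⟩ := TensorAux.exists_res₂_eq 𝔠 A s
    have hr' : r ∈ J.comap (𝔠.res₂ A).toRingHom := by
      show 𝔠.res₂ A r ∈ J
      rw [hr]
      exact J.mul_mem_left _ hs
    have h1 : s = (𝔠.res₁ A (𝔠.xA A)) ^ m * 𝔠.res₂ A r := by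
      rw [hr, ← mul_assoc, ← mul_pow, TensorAux.res₁_xA_mul_res₂_yA, one_pow, one_mul]
    rw [h1]
    exact Ideal.mul_mem_left _ _ (Ideal.mem_map_of_mem (𝔠.res₂ A) hr')

theorem map_comap_res₁ (J : Ideal (𝔠.R₁₂ A)) :
    (J.comap (𝔠.res₁ A).toRingHom).map (𝔠.res₁ A) = J := by
  apply le_antisymm
  · exact Ideal.map_comap_le
  · intro s hs
    obtain ⟨m, r, hr⟩ := TensorAux.exists_res₁_eq 𝔠 A s
    have hr' : r ∈ J.comap (𝔠.res₁ A).toRingHom := by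
      show 𝔠.res₁ A r ∈ J
      rw [hr]
      exact J.mul_mem_left _ hs
    have h1 : s = (𝔠.res₂ A (𝔠.yA A)) ^ m * 𝔠.res₁ A r := by
      rw [hr, ← mul_assoc, ← mul_pow, mul_comm (𝔠.res₂ A (𝔠.yA A)),
        TensorAux.res₁_xA_mul_res₂_yA, one_pow, one_mul]
    rw [h1]
    exact Ideal.mul_mem_left _ _ (Ideal.mem_map_of_mem (𝔠.res₁ A) hr')

end Odiv

theorem isQC_Idiv (I : Ideal (𝔠.R₁ A)) : (Idiv I).IsQC :=
  idealTriple_isQC (a₁ := I) (a₂ := I₂ I) (a₁₂ := I₁₂ I) unit_isQC rfl (Odiv.map_comap_res₂ _)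

theorem isQC_Odiv (I : Ideal (𝔠.R₁ A)) : (Odiv I).IsQC :=
  idealQuotTriple_isQC (a₁ := I) (a₂ := I₂ I) (a₁₂ := I₁₂ I) unit_isQC rfl (Odiv.map_comap_res₂ _)

theorem isQC_Idiv₂ (J : Ideal (𝔠.R₂ A)) : (Idiv₂ J).IsQC :=
  idealTriple_isQC (a₁ := J₁ J) (a₂ := J) (a₁₂ := J₁₂ J) unit_isQC (Odiv.map_comap_res₁ _) rfl

theorem isQC_Odiv₂ (J : Ideal (𝔠.R₂ A)) : (Odiv₂ J).IsQC :=
  idealQuotTriple_isQC (a₁ := J₁ J) (a₂ := J) (a₁₂ := J₁₂ J) unit_isQC (Odiv.map_comap_res₁ _) rfl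

/-- If `D = V(I)` is finite over `A` then `D` does not meet `y = 0`. -/
theorem exists_yA_mul_sub_one_mem (I : Ideal (𝔠.R₁ A)) (p : Polynomial A) (hp : p.Monic)
    (hpI : Polynomial.aeval (𝔠.xA A) p ∈ I) : ∃ v : 𝔠.R₂ A, 𝔠.yA A * v - 1 ∈ I₂ I := by
  have hXY : 𝔠.res₁ A (𝔠.xA A) * 𝔠.res₂ A (𝔠.yA A) = 1 := TensorAux.res₁_xA_mul_res₂_yA 𝔠 A
  let _ : Invertible (𝔠.res₁ A (𝔠.xA A)) :=
    ⟨𝔠.res₂ A (𝔠.yA A), (mul_comm _ _).trans hXY, hXY⟩
  have h1 := Polynomial.eval₂_reverse_mul_pow (algebraMap A (𝔠.R₁₂ A)) (𝔠.res₁ A (𝔠.xA A)) p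
  have hinv : ⅟(𝔠.res₁ A (𝔠.xA A)) = 𝔠.res₂ A (𝔠.yA A) := rfl
  rw [hinv] at h1
  have h2 : 𝔠.res₂ A (Polynomial.aeval (𝔠.yA A) p.reverse)
      = 𝔠.res₁ A (Polynomial.aeval (𝔠.xA A) p) * (𝔠.res₂ A (𝔠.yA A)) ^ p.natDegree := by
    rw [← Polynomial.aeval_algHom_apply, ← Polynomial.aeval_algHom_apply, Polynomial.aeval_def,
      Polynomial.aeval_def, ← h1, mul_assoc, ← mul_pow, hXY, one_pow, mul_one]
  have h3 : Polynomial.aeval (𝔠.yA A) p.reverse ∈ I₂ I := by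
    show 𝔠.res₂ A (Polynomial.aeval (𝔠.yA A) p.reverse) ∈ I₁₂ I
    rw [h2]
    exact Ideal.mul_mem_right _ _ (Ideal.mem_map_of_mem (𝔠.res₁ A).toRingHom hpI)
  refine ⟨- Polynomial.aeval (𝔠.yA A) p.reverse.divX, ?_⟩
  have h4 : 𝔠.yA A * (- Polynomial.aeval (𝔠.yA A) p.reverse.divX) - 1
      = - Polynomial.aeval (𝔠.yA A) p.reverse := by
    conv_rhs => rw [← Polynomial.divX_mul_X_add p.reverse]
    rw [Polynomial.coeff_zero_reverse, hp.leadingCoeff]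
    simp only [map_add, map_mul, Polynomial.aeval_X, map_one]
    ring
  rw [h4]
  exact (I₂ I).neg_mem h3

namespace Odiv

/-- iterating an injective/surjective scalar action -/
theorem pow_smul_bijective {R M : Type*} [CommRing R] [AddCommGroup M] [Module R M] (y : R)
    (h : Bijective (fun n : M => y • n)) (m : ℕ) : Bijective (fun n : M => y ^ m • n) := by
  induction m with
  | zero =>
    have : (fun n : M => y ^ 0 • n) = id := by
      funext n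
      simp
    rw [this]
    exact bijective_id
  | succ m ih =>
    have : (fun n : M => y ^ (m + 1) • n) = (fun n : M => y ^ m • n) ∘ (fun n : M => y • n) := by
      funext n
      simp [pow_succ, mul_smul]
    rw [this]
    exact ih.comp h

/-- a scalar with an inverse modulo the annihilator acts bijectively -/
theorem smul_bijective_of_mul_sub_one {R M : Type*} [CommRing R] [AddCommGroup M] [Module R M]
    (y v : R) (h : ∀ n : M, (y * v - 1) • n = 0) : Bijective (fun n : M => y • n) := by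
  have h' : ∀ n : M, y • v • n = n := by
    intro n
    have := h n
    rwa [sub_smul, one_smul, sub_eq_zero, mul_smul] at this
  constructor
  · intro a b hab
    have hab' : y • a = y • b := hab
    have := congrArg (fun z => v • z) hab'
    simp only [smul_comm v y, h'] at this
    exact this
  · intro n
    exact ⟨v • n, h' n⟩

end Odiv

theorem ρ₂_bijective_of_yA {T : Triple 𝔠 A} (hT : T.IsQC)
    (h : Bijective (fun n : T.N₂ => 𝔠.yA A • n)) : Bijective T.ρ₂ := by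
  constructor
  · rw [injective_iff_map_eq_zero]
    intro n hn
    obtain ⟨m, hm⟩ := hT.inj₂ n hn
    apply (Odiv.pow_smul_bijective _ h m).1
    show 𝔠.yA A ^ m • n = 𝔠.yA A ^ m • (0 : T.N₂)
    rw [hm, smul_zero]
  · intro n
    obtain ⟨m, n₂, hn₂⟩ := hT.surj₂ n
    obtain ⟨n₂', hn₂'⟩ := (Odiv.pow_smul_bijective _ h m).2 n₂
    refine ⟨n₂', ?_⟩
    have h1 : (𝔠.res₂ A (𝔠.yA A)) ^ m • T.ρ₂ n₂' = (𝔠.res₂ A (𝔠.yA A)) ^ m • n := by
      rw [← hn₂, ← hn₂']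
      show _ = T.ρ₂ (𝔠.yA A ^ m • n₂')
      rw [T.ρ₂.map_smulₛₗ]
      simp
    have h2 := congrArg (fun z => (𝔠.res₁ A (𝔠.xA A)) ^ m • z) h1
    simpa [smul_smul, ← mul_pow, TensorAux.res₁_xA_mul_res₂_yA] using h2

theorem ρ₁_bijective_of_xA {T : Triple 𝔠 A} (hT : T.IsQC)
    (h : Bijective (fun n : T.N₁ => 𝔠.xA A • n)) : Bijective T.ρ₁ := by
  constructor
  · rw [injective_iff_map_eq_zero]
    intro n hn
    obtain ⟨m, hm⟩ := hT.inj₁ n hn
    apply (Odiv.pow_smul_bijective _ h m).1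
    show 𝔠.xA A ^ m • n = 𝔠.xA A ^ m • (0 : T.N₁)
    rw [hm, smul_zero]
  · intro n
    obtain ⟨m, n₁, hn₁⟩ := hT.surj₁ n
    obtain ⟨n₁', hn₁'⟩ := (Odiv.pow_smul_bijective _ h m).2 n₁
    refine ⟨n₁', ?_⟩
    have h1 : (𝔠.res₁ A (𝔠.xA A)) ^ m • T.ρ₁ n₁' = (𝔠.res₁ A (𝔠.xA A)) ^ m • n := by
      rw [← hn₁, ← hn₁']
      show _ = T.ρ₁ (𝔠.xA A ^ m • n₁')
      rw [T.ρ₁.map_smulₛₗ]
      simp
    have h2 := congrArg (fun z => (𝔠.res₂ A (𝔠.yA A)) ^ m • z) h1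
    have hYX : 𝔠.res₂ A (𝔠.yA A) * 𝔠.res₁ A (𝔠.xA A) = 1 :=
      (mul_comm _ _).trans (TensorAux.res₁_xA_mul_res₂_yA 𝔠 A)
    simpa [smul_smul, ← mul_pow, hYX] using h2

namespace Odiv

theorem smul_quot_eq_zero {R M : Type*} [CommRing R] [AddCommGroup M] [Module R M]
    (S : Submodule R M) (r : R) (h : ∀ m : M, r • m ∈ S) (q : M ⧸ S) : r • q = 0 := by
  obtain ⟨q, rfl⟩ := Submodule.Quotient.mk_surjective _ q
  rw [← Submodule.Quotient.mk_smul, Submodule.Quotient.mk_eq_zero]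
  exact h q

theorem smul_tensor_eq_zero {R M N : Type*} [CommRing R] [AddCommGroup M] [Module R M]
    [AddCommGroup N] [Module R N] (r : R) (h : ∀ q : N, r • q = 0) (t : M ⊗[R] N) : r • t = 0 := by
  induction t using TensorProduct.induction_on with
  | zero => rw [smul_zero]
  | tmul n q => rw [← TensorProduct.tmul_smul, h, TensorProduct.tmul_zero]
  | add a b ha hb => rw [smul_add, ha, hb, add_zero]

theorem smul_Odiv₂_eq_zero (I : Ideal (𝔠.R₁ A)) {r : 𝔠.R₂ A} (hr : r ∈ I₂ I)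
    (q : (Triple.Odiv I).N₂) : r • q = 0 :=
  smul_quot_eq_zero (M := (unit 𝔠 A).N₂) (I₂ I) r
    (fun m => (I₂ I).mul_mem_right (show 𝔠.R₂ A from m) hr) q

end Odiv

theorem tensor_Odiv_ρ₂_bijective {T : Triple 𝔠 A} (hT : T.IsQC) (I : Ideal (𝔠.R₁ A))
    (p : Polynomial A) (hp : p.Monic) (hpI : Polynomial.aeval (𝔠.xA A) p ∈ I) :
    Bijective (T.tensor (Odiv I)).ρ₂ := by
  obtain ⟨v, hv⟩ := exists_yA_mul_sub_one_mem I p hp hpI
  apply ρ₂_bijective_of_yA (hT.tensor (isQC_Odiv I))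
  apply Odiv.smul_bijective_of_mul_sub_one _ v
  exact Odiv.smul_tensor_eq_zero (M := T.N₂) (N := (Triple.Odiv I).N₂) _
    (Odiv.smul_Odiv₂_eq_zero I hv)

theorem Odiv_ρ₂_bijective (I : Ideal (𝔠.R₁ A))
    (p : Polynomial A) (hp : p.Monic) (hpI : Polynomial.aeval (𝔠.xA A) p ∈ I) :
    Bijective (Odiv I).ρ₂ := by
  obtain ⟨v, hv⟩ := exists_yA_mul_sub_one_mem I p hp hpI
  apply ρ₂_bijective_of_yA (isQC_Odiv I)
  exact Odiv.smul_bijective_of_mul_sub_one _ v (Odiv.smul_Odiv₂_eq_zero I hv)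

end X5

end Fermat.Agent.S25.RR
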