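/-
S25 / block X1a: an invertible module is trivial on modules of finite length; Chinese remainder count.
Owner: helper177.   (Mathlib only.)
-/
import Mathlib

set_option autoImplicit false

open scoped TensorProduct
open Function

namespace Fermat.Agent.S25.RR

section RankOne

variable {R N : Type*} [CommRing R] [AddCommGroup N] [Module R N] [Module.Invertible R N]

/-- The rank one identity `φ(n) n' = φ(n') n` in an invertible module. -/
theorem dual_apply_smul_comm (φ : N →ₗ[R] R) (n n' : N) : φ n • n' = φ n' • n := by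
  have h : n ⊗ₜ[R] n' = n' ⊗ₜ[R] n := Module.Invertible.tmul_comm
  have h2 := congrArg (fun z => TensorProduct.lid R N (φ.rTensor N z)) h
  simpa using h2

/-- `I N = N` forces `I = ⊤` for an invertible module. -/
theorem eq_top_of_smul_top_eq_top (I : Ideal R) (h : I • (⊤ : Submodule R N) = ⊤) : I = ⊤ := by
  have key : ∀ z : Module.Dual R N ⊗[R] N, contractLeft R N z ∈ I := by
    intro z
    induction z using TensorProduct.induction_on with
    | zero => simp
    | tmul f n =>
      have hn : n ∈ I • (⊤ : Submodule R N) := by rw [h]; exact Submodule.mem_top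
      rw [contractLeft_apply]
      induction hn using Submodule.smul_induction_on' with
      | smul r hr m _ =>
        rw [map_smul, smul_eq_mul]
        exact I.mul_mem_right _ hr
      | add x _ y _ hx hy =>
        rw [map_add]
        exact I.add_mem hx hy
    | add x y hx hy =>
      rw [map_add]
      exact I.add_mem hx hy
  obtain ⟨z, hz⟩ := (Module.Invertible.bijective (R := R) (M := N)).2 1
  exact (Ideal.eq_top_iff_one I).2 (hz ▸ key z)

end RankOne

/-- An invertible module is trivial on anything of finite length. -/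
theorem nonempty_tensor_equiv_of_finite (K R N Q : Type*) [Field K] [CommRing R] [Algebra K R]
    [AddCommGroup N] [Module R N] [Module.Invertible R N] [AddCommGroup Q] [Module R Q]
    [Module K Q] [IsScalarTower K R Q] [Module.Finite K Q] : Nonempty (N ⊗[R] Q ≃ₗ[R] Q) := by
  classical
  -- the annihilator and the Artinian quotient
  let a : Ideal R := Module.annihilator R Q
  let L : R →ₐ[K] Module.End K Q := Algebra.lsmul K K Q
  have hker : ∀ r : R, L r = 0 ↔ r ∈ a := by
    intro r
    rw [Module.mem_annihilator]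
    constructor
    · intro h q
      have := LinearMap.congr_fun h q
      simpa [L] using this
    · intro h
      ext q
      simpa [L] using h q
  let Lq : (R ⧸ a) →ₗ[K] Module.End K Q :=
    (Submodule.liftQ (a.restrictScalars K) L.toLinearMap (by
      intro r hr
      exact (hker r).2 hr))
  have hLq : Injective Lq := by
    rw [injective_iff_map_eq_zero]
    intro z hz
    obtain ⟨r, rfl⟩ := Ideal.Quotient.mk_surjective z
    have : L r = 0 := hz
    exact Ideal.Quotient.eq_zero_iff_mem.2 ((hker r).1 this)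
  have hfin : Module.Finite K (R ⧸ a) := Module.Finite.of_injective Lq hLq
  have hart : IsArtinianRing (R ⧸ a) := IsArtinianRing.of_finite K (R ⧸ a)
  obtain ⟨e⟩ := Module.Invertible.free_iff_linearEquiv.mp
    (inferInstance : Module.Free (R ⧸ a) ((R ⧸ a) ⊗[R] N))
  -- a generator modulo `a`
  have hsurj : ∀ z : (R ⧸ a) ⊗[R] N, ∃ n : N, (1 : R ⧸ a) ⊗ₜ[R] n = z := by
    intro z
    induction z using TensorProduct.induction_on with
    | zero => exact ⟨0, by simp⟩
    | tmul s n =>
      obtain ⟨r, rfl⟩ := Ideal.Quotient.mk_surjective s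
      refine ⟨r • n, ?_⟩
      rw [TensorProduct.tmul_smul, TensorProduct.smul_tmul', Algebra.smul_def, mul_one]
      rfl
    | add x y hx hy =>
      obtain ⟨n, rfl⟩ := hx
      obtain ⟨m, rfl⟩ := hy
      exact ⟨n + m, TensorProduct.tmul_add _ _ _⟩
  obtain ⟨n₀, hn₀⟩ := hsurj (e.symm 1)
  let ψ : N →ₗ[R] (R ⧸ a) := (e.toLinearMap.restrictScalars R).comp (TensorProduct.mk R (R ⧸ a) N 1)
  obtain ⟨φ₀, hφ₀⟩ := Module.projective_lifting_property (Submodule.mkQ a) ψ
    (Submodule.mkQ_surjective a)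
  have h1 : φ₀ n₀ - 1 ∈ a := by
    have h2 : (Submodule.mkQ a) (φ₀ n₀) = ψ n₀ := LinearMap.congr_fun hφ₀ n₀
    have h3 : ψ n₀ = 1 := by
      change e ((1 : R ⧸ a) ⊗ₜ[R] n₀) = 1
      rw [hn₀, LinearEquiv.apply_symm_apply]
    have h4 : Ideal.Quotient.mk a (φ₀ n₀) = Ideal.Quotient.mk a 1 := by
      rw [map_one, ← h3, ← h2]
      rfl
    exact Ideal.Quotient.eq.1 h4
  have h1' : ∀ q : Q, φ₀ n₀ • q = q := by
    intro q
    have := Module.mem_annihilator.1 h1 q
    rwa [sub_smul, one_smul, sub_eq_zero] at this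
  let F : Q →ₗ[R] N ⊗[R] Q := TensorProduct.mk R N Q n₀
  let G : N ⊗[R] Q →ₗ[R] Q := TensorProduct.lift ((LinearMap.lsmul R Q).comp φ₀)
  refine ⟨LinearEquiv.ofLinearMap G F ?_ ?_⟩
  · ext q
    simp [F, G, h1']
  · ext n q
    change n₀ ⊗ₜ[R] (φ₀ n • q) = n ⊗ₜ[R] q
    rw [← TensorProduct.smul_tmul, dual_apply_smul_comm φ₀ n n₀, TensorProduct.smul_tmul, h1']

/-- Chinese remainder theorem: a quotient of `N` through which the evaluations at `#Z` distinct
rational points factor has dimension `≥ #Z`. -/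
theorem card_le_finrank_quotient {K R N : Type*} [Field K] [CommRing R] [Algebra K R]
    [AddCommGroup N] [Module R N] [Module.Invertible R N] (Z : Finset (R →ₐ[K] K))
    (S : Submodule R N) (hS : ∀ φ ∈ Z, S ≤ RingHom.ker φ • (⊤ : Submodule R N))
    [Module K (N ⧸ S)] [IsScalarTower K R (N ⧸ S)] [Module.Finite K (N ⧸ S)] :
    Z.card ≤ Module.finrank K (N ⧸ S) := by
  classical
  -- separating elements
  have hsep : ∀ φ ψ : R →ₐ[K] K, φ ≠ ψ → ∃ t : R, φ t = 1 ∧ ψ t = 0 := by
    intro φ ψ hne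
    obtain ⟨r, hr⟩ : ∃ r, φ r ≠ ψ r := by
      by_contra hcon
      exact hne (AlgHom.ext fun r => by_contra fun h => hcon ⟨r, h⟩)
    have hr' : φ r - ψ r ≠ 0 := sub_ne_zero.2 hr
    refine ⟨algebraMap K R (φ r - ψ r)⁻¹ * (r - algebraMap K R (ψ r)), ?_, ?_⟩
    · simp [inv_mul_cancel₀ hr']
    · simp
  choose! t ht1 ht0 using hsep
  let ε : (R →ₐ[K] K) → R := fun φ => ∏ ψ ∈ Z.erase φ, t φ ψ
  have hε1 : ∀ φ : R →ₐ[K] K, φ (ε φ) = 1 := by
    intro φ
    simp only [ε, map_prod]
    exact Finset.prod_eq_one fun ψ hψ => ht1 φ ψ (Finset.ne_of_mem_erase hψ).symm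
  have hε0 : ∀ φ ψ : R →ₐ[K] K, ψ ∈ Z → φ ≠ ψ → ψ (ε φ) = 0 := by
    intro φ ψ hψ hne
    simp only [ε, map_prod]
    exact Finset.prod_eq_zero (Finset.mem_erase.2 ⟨hne.symm, hψ⟩) (ht0 φ ψ hne)
  -- elements not vanishing at the points
  have hn : ∀ φ : R →ₐ[K] K, ∃ n : N, n ∉ RingHom.ker φ • (⊤ : Submodule R N) := by
    intro φ
    by_contra hcon
    have htop : RingHom.ker φ • (⊤ : Submodule R N) = ⊤ := by
      rw [eq_top_iff]
      intro n _
      by_contra h
      exact hcon ⟨n, h⟩
    have := eq_top_of_smul_top_eq_top (RingHom.ker φ) htop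
    exact RingHom.ker_ne_top (φ : R →+* K) this
  choose ν hν using hn
  let v : Z → N ⧸ S := fun φ => Submodule.Quotient.mk (ε φ.1 • ν φ.1)
  have hli : LinearIndependent K v := by
    rw [Fintype.linearIndependent_iff]
    intro c hc ψ
    by_contra hcψ
    -- rewrite the relation in `N`
    have e1 : ∑ φ : Z, c φ • v φ =
        Submodule.Quotient.mk (∑ φ : Z, (algebraMap K R (c φ) * ε φ.1) • ν φ.1) := by
      have : (Submodule.Quotient.mk (∑ φ : Z, (algebraMap K R (c φ) * ε φ.1) • ν φ.1) : N ⧸ S) =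
          ∑ φ : Z, (Submodule.Quotient.mk ((algebraMap K R (c φ) * ε φ.1) • ν φ.1) : N ⧸ S) :=
        map_sum (Submodule.mkQ S) _ _
      rw [this]
      refine Finset.sum_congr rfl fun φ _ => ?_
      rw [mul_smul, Submodule.Quotient.mk_smul, algebraMap_smul]
    rw [e1, Submodule.Quotient.mk_eq_zero] at hc
    have hc' := hS ψ.1 ψ.2 hc
    set P : Submodule R N := RingHom.ker ψ.1 • (⊤ : Submodule R N) with hP
    have hother : ∀ φ : Z, φ ≠ ψ → (algebraMap K R (c φ) * ε φ.1) • ν φ.1 ∈ P := by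
      intro φ hne
      refine Submodule.smul_mem_smul ?_ Submodule.mem_top
      rw [RingHom.mem_ker]
      have h0 : ψ.1 (ε φ.1) = 0 := hε0 φ.1 ψ.1 ψ.2 (fun h => hne (Subtype.ext h))
      change ψ.1 (algebraMap K R (c φ) * ε φ.1) = 0
      rw [map_mul, h0, mul_zero]
    have hψmem : (algebraMap K R (c ψ) * ε ψ.1) • ν ψ.1 ∈ P := by
      rw [← Finset.add_sum_erase _ _ (Finset.mem_univ ψ)] at hc'
      refine (Submodule.add_mem_iff_left P ?_).1 hc'
      exact Submodule.sum_mem _ fun φ hφ => hother φ (Finset.ne_of_mem_erase hφ)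
    -- `c ψ ε ψ ≡ c ψ` modulo `ker ψ`, and `c ψ` is invertible
    have hunit : (algebraMap K R (c ψ)⁻¹ * (algebraMap K R (c ψ) * ε ψ.1) - 1) ∈ RingHom.ker ψ.1 := by
      rw [RingHom.mem_ker]
      change ψ.1 (algebraMap K R (c ψ)⁻¹ * (algebraMap K R (c ψ) * ε ψ.1) - 1) = 0
      rw [map_sub, map_mul, map_mul, hε1, map_one, AlgHom.commutes, AlgHom.commutes]
      simp [inv_mul_cancel₀ hcψ]
    apply hν ψ.1
    have h2 : (algebraMap K R (c ψ)⁻¹ * (algebraMap K R (c ψ) * ε ψ.1)) • ν ψ.1 ∈ P := by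
      rw [mul_smul]
      exact P.smul_mem _ hψmem
    have h3 : (algebraMap K R (c ψ)⁻¹ * (algebraMap K R (c ψ) * ε ψ.1) - 1) • ν ψ.1 ∈ P :=
      Submodule.smul_mem_smul hunit Submodule.mem_top
    have h4 := P.sub_mem h2 h3
    rwa [← sub_smul, sub_sub_cancel, one_smul] at h4
  have := hli.fintype_card_le_finrank
  simpa using this

end Fermat.Agent.S25.RR
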