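/-
S25 / block X2: finite cohomology of invertible triples over a field; `h⁰`, `h¹`, `χ` of the unit.
Thin wrapper around `Charts/FieldBasic.lean` (helper60).   Owner: helper177.
-/
import Fermat.Agent.S25.Charts.FieldBasic
import Fermat.Agent.S25.Triple.Torsion

set_option autoImplicit false

universe u

open scoped TensorProduct
open Function

namespace Fermat.Agent.S25.RR

open Triple

variable {k : Type u} [Field k] {𝔠 : CurveCharts k}

theorem exists_finiteModel {A : Type u} [CommRing A] [Algebra k A] (T : Triple 𝔠 A)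
    (hT : T.IsInvertible) : Nonempty (FiniteModel T.δ) := Triple.exists_finiteModel T hT

variable {K : Type u} [Field K] [Algebra k K]

theorem finCoh {T : Triple 𝔠 K} (hT : T.IsInvertible) : T.FinCoh :=
  ⟨(finite_cohomology T hT).1, (finite_cohomology T hT).2⟩

/-- `h¹ = 0` means that `δ` is onto. -/
theorem h1_eq_zero_iff {T : Triple 𝔠 K} (hT : T.FinCoh) : T.h1 = 0 ↔ Surjective T.δ := by
  constructor
  · intro h
    have := hT.coker
    have hs : Subsingleton T.H1 := Module.finrank_zero_iff.1 h
    exact T.surjective_of_subsingleton_H1 hs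
  · exact h1_eq_zero_of_surjective

theorem h0_eq_zero_iff {T : Triple 𝔠 K} (hT : T.FinCoh) : T.h0 = 0 ↔ Injective T.δ := by
  have := hT.ker
  constructor
  · intro h
    have hs : Subsingleton (LinearMap.ker T.δ) := Module.finrank_zero_iff.1 h
    rw [← LinearMap.ker_eq_bot]
    exact (Submodule.subsingleton_iff_eq_bot).1 hs
  · intro h
    have hb : LinearMap.ker T.δ = ⊥ := LinearMap.ker_eq_bot.2 h
    unfold Triple.h0
    rw [hb]
    exact finrank_bot K _

variable (𝔠 K)

theorem h0_unit : (unit 𝔠 K).h0 = 1 := Fermat.Agent.S25.h0_unit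

theorem h1_unit : (unit 𝔠 K).h1 = 𝔠.genus := Fermat.Agent.S25.h1_unit

theorem chi_unit : (unit 𝔠 K).chi = 1 - 𝔠.genus := Fermat.Agent.S25.chi_unit

end Fermat.Agent.S25.RR
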