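/-
S25 / block X3: `χ(T ⊗ Q) = χ(Q)` for a torsion sheaf `Q`; `χ` and `H¹` along `0 → S' → S → Q → 0`.
Owner: helper177.
-/
import Fermat.Agent.S25.RR.Artin
import Fermat.Agent.S25.RR.FinCoh
import Fermat.Agent.S25.Triple.TensorExact

set_option autoImplicit false

universe u

open scoped TensorProduct
open Function

namespace Fermat.Agent.S25.RR

open Triple

variable {k : Type u} [Field k] {𝔠 : CurveCharts k} {K : Type u} [Field K] [Algebra k K]

/-- transport of finiteness and dimension along an `R`-linear equivalence -/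
theorem finite_finrank_of_equiv {R M M' : Type*} [CommRing R] [Algebra K R] [AddCommGroup M]
    [AddCommGroup M'] [Module R M] [Module R M'] [Module K M] [Module K M'] [IsScalarTower K R M]
    [IsScalarTower K R M'] [Module.Finite K M'] (e : M ≃ₗ[R] M') :
    Module.Finite K M ∧ Module.finrank K M = Module.finrank K M' :=
  ⟨Module.Finite.equiv (e.restrictScalars K).symm, (e.restrictScalars K).finrank_eq⟩

theorem finite_tensor₁ {T Q : Triple 𝔠 K} (hT : T.IsInvertible) [Module.Finite K Q.N₁] :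
    Module.Finite K (T.tensor Q).N₁ ∧
      Module.finrank K (T.tensor Q).N₁ = Module.finrank K Q.N₁ := by
  have := hT.inv₁
  obtain ⟨e⟩ := nonempty_tensor_equiv_of_finite K (𝔠.R₁ K) T.N₁ Q.N₁
  have e' : (T.tensor Q).N₁ ≃ₗ[𝔠.R₁ K] Q.N₁ := e
  exact finite_finrank_of_equiv e'

theorem finite_tensor₂ {T Q : Triple 𝔠 K} (hT : T.IsInvertible) [Module.Finite K Q.N₂] :
    Module.Finite K (T.tensor Q).N₂ ∧
      Module.finrank K (T.tensor Q).N₂ = Module.finrank K Q.N₂ := by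
  have := hT.inv₂
  obtain ⟨e⟩ := nonempty_tensor_equiv_of_finite K (𝔠.R₂ K) T.N₂ Q.N₂
  have e' : (T.tensor Q).N₂ ≃ₗ[𝔠.R₂ K] Q.N₂ := e
  exact finite_finrank_of_equiv e'

theorem finite_tensor₁₂ {T Q : Triple 𝔠 K} (hT : T.IsInvertible) [Module.Finite K Q.N₁₂] :
    Module.Finite K (T.tensor Q).N₁₂ ∧
      Module.finrank K (T.tensor Q).N₁₂ = Module.finrank K Q.N₁₂ := by
  have := hT.inv₁₂
  obtain ⟨e⟩ := nonempty_tensor_equiv_of_finite K (𝔠.R₁₂ K) T.N₁₂ Q.N₁₂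
  have e' : (T.tensor Q).N₁₂ ≃ₗ[𝔠.R₁₂ K] Q.N₁₂ := e
  exact finite_finrank_of_equiv e'

/-- `χ(T ⊗ Q) = χ(Q)` for a torsion sheaf `Q`. -/
theorem chi_tensor_torsion {T Q : Triple 𝔠 K} (hT : T.IsInvertible) (hQ : Q.IsQC)
    [Module.Finite K Q.N₁] [Module.Finite K Q.N₂] :
    (T.tensor Q).FinCoh ∧ (T.tensor Q).h1 = 0 ∧ (T.tensor Q).chi = Q.chi := by
  have hTQ : (T.tensor Q).IsQC := hT.toIsQC.tensor hQ
  have f₁₂ : Module.Finite K Q.N₁₂ := hQ.finite_N₁₂_of_finite₁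
  obtain ⟨g₁, e₁⟩ := finite_tensor₁ (Q := Q) hT
  obtain ⟨g₂, e₂⟩ := finite_tensor₂ (Q := Q) hT
  obtain ⟨_, e₁₂⟩ := finite_tensor₁₂ (Q := Q) hT
  refine ⟨hTQ.finCoh_of_finite, hTQ.h1_eq_zero_of_finite₁, ?_⟩
  rw [hTQ.chi_of_finite, hQ.chi_of_finite, e₁, e₂, e₁₂]

/-- `χ(T ⊗ S) = χ(T ⊗ S') + χ(Q)` for `0 → S' → S → Q → 0`, `Q` torsion. -/
theorem chi_tensor_of_shortExact {T S' S Q : Triple 𝔠 K} (hT : T.IsInvertible)
    (hS' : S'.IsInvertible) (_hS : S.IsInvertible) (hQ : Q.IsQC) {f : Hom S' S} {g : Hom S Q}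
    (E : ShortExact f g) [Module.Finite K Q.N₁] [Module.Finite K Q.N₂] :
    (T.tensor S).chi = (T.tensor S').chi + Q.chi := by
  obtain ⟨h1, _, h3⟩ := chi_tensor_torsion (Q := Q) hT hQ
  rw [(E.tensorLeft hT).chi_add (finCoh (hT.tensor hS')) h1, h3]

theorem h1_tensor_eq_zero_of_shortExact {T S' S Q : Triple 𝔠 K} (hT : T.IsInvertible)
    (hS' : S'.IsInvertible) (_hS : S.IsInvertible) (hQ : Q.IsQC) {f : Hom S' S} {g : Hom S Q}
    (E : ShortExact f g) [Module.Finite K Q.N₁] [Module.Finite K Q.N₂]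
    (h : (T.tensor S').h1 = 0) : (T.tensor S).h1 = 0 := by
  obtain ⟨h1, h2, _⟩ := chi_tensor_torsion (Q := Q) hT hQ
  have E' := E.tensorLeft hT
  have s' : Subsingleton (T.tensor S').H1 :=
    (T.tensor S').subsingleton_H1_of_surjective ((h1_eq_zero_iff (finCoh (hT.tensor hS'))).1 h)
  have s'' : Subsingleton (T.tensor Q).H1 :=
    (T.tensor Q).subsingleton_H1_of_surjective ((h1_eq_zero_iff h1).1 h2)
  have s : Subsingleton (T.tensor S).H1 := by
    refine ⟨fun a b => ?_⟩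
    have key : ∀ z : (T.tensor S).H1, z = 0 := by
      intro z
      obtain ⟨w, hw⟩ := (E'.exact_mapH1_mapH1 z).1 (Subsingleton.elim _ _)
      rw [← hw, Subsingleton.elim w 0, map_zero]
    rw [key a, key b]
  exact h1_eq_zero_of_surjective ((T.tensor S).surjective_of_subsingleton_H1 s)

end Fermat.Agent.S25.RR
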