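/-
S25 / block X, section X6: `𝒪(-D)` over a field: invertibility, `χ(T(-D)) = χ(T) - deg D`,
`H¹(T(-σ)) = 0`.   Proofs: helper171.
-/
import Fermat.Agent.S25.RR.Base
import Fermat.Agent.S25.RR.TensorTorsion
import Fermat.Agent.S25.RR.ArtinB
import Fermat.Agent.S25.RR.Odiv

set_option autoImplicit false
set_option linter.unusedSectionVars false

universe u

open scoped TensorProduct
open Function

namespace Fermat.Agent.S25.RR

open Triple

variable {k : Type u} [Field k] {𝔠 : CurveCharts k}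

section X6

variable [IsAlgClosed k] {K : Type u} [Field K] [Algebra k K]

theorem exists_monic_aeval_mem (I : Ideal (𝔠.R₁ K)) (hI : I ≠ ⊥) :
    ∃ p : Polynomial K, p.Monic ∧ Polynomial.aeval (𝔠.xA K) p ∈ I := by
  have := 𝔠.isDomain_R₁ K
  let _ : Algebra (Polynomial K) (𝔠.R₁ K) :=
    (Polynomial.aeval (R := K) (𝔠.xA K)).toRingHom.toAlgebra
  have hfin : Module.Finite (Polynomial K) (𝔠.R₁ K) := 𝔠.finite_xA K
  have hint : Algebra.IsIntegral (Polynomial K) (𝔠.R₁ K) := inferInstance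
  obtain ⟨s, hs, hs0⟩ := Submodule.exists_mem_ne_zero_of_ne_bot hI
  have h1 : I.comap (algebraMap (Polynomial K) (𝔠.R₁ K)) ≠ ⊥ :=
    Ideal.comap_ne_bot_of_integral_mem hs0 hs (Algebra.IsIntegral.isIntegral s)
  obtain ⟨q, hq, hq0⟩ := Submodule.exists_mem_ne_zero_of_ne_bot h1
  refine ⟨q * Polynomial.C q.leadingCoeff⁻¹, Polynomial.monic_mul_leadingCoeff_inv hq0, ?_⟩
  rw [map_mul]
  exact I.mul_mem_right _ hq

/-- the trace of a nonzero ideal on the second chart is nonzero -/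
theorem I₂_ne_bot (I : Ideal (𝔠.R₁ K)) (hI : I ≠ ⊥) : I₂ I ≠ ⊥ := by
  obtain ⟨i, hi, hi0⟩ := Submodule.exists_mem_ne_zero_of_ne_bot hI
  obtain ⟨m, r, hr⟩ := TensorAux.exists_res₂_eq 𝔠 K (𝔠.res₁ K i)
  have hmem : r ∈ I₂ I := by
    show 𝔠.res₂ K r ∈ I₁₂ I
    rw [hr]
    exact Ideal.mul_mem_left _ _ (Ideal.mem_map_of_mem (𝔠.res₁ K).toRingHom hi)
  intro hbot
  have hr0 : r = 0 := by
    rw [hbot] at hmem
    exact (Submodule.mem_bot _).mp hmem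
  rw [hr0, map_zero] at hr
  have hu : IsUnit ((𝔠.res₂ K (𝔠.yA K)) ^ m) := (𝔠.isUnit_res₂_yA K).pow m
  have h0 : 𝔠.res₁ K i = 0 := (hu.mul_right_eq_zero).mp hr.symm
  exact hi0 (TensorAux.res₁_injective 𝔠 K (h0.trans (map_zero _).symm))

theorem isInvertible_Idiv (I : Ideal (𝔠.R₁ K)) (hI : I ≠ ⊥) : (Idiv I).IsInvertible where
  toIsQC := RR.isQC_Idiv I
  inv₁ := by
    have := 𝔠.isDedekindDomain_R₁ K
    exact Points.invertible_of_ne_bot I hI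
  inv₂ := by
    have := 𝔠.isDedekindDomain_R₂ K
    exact Points.invertible_of_ne_bot (I₂ I) (I₂_ne_bot I hI)

/-- the two `K`-module structures on `R₁ / I` agree -/
noncomputable def OdivEquiv₁ (I : Ideal (𝔠.R₁ K)) : (𝔠.R₁ K ⧸ I) ≃ₗ[K] (Odiv I).N₁ where
  toFun := id
  invFun := id
  left_inv _ := rfl
  right_inv _ := rfl
  map_add' _ _ := rfl
  map_smul' a n := by
    obtain ⟨r, rfl⟩ := Ideal.Quotient.mk_surjective n
    show Ideal.Quotient.mk I (a • r) = Ideal.Quotient.mk I (algebraMap K (𝔠.R₁ K) a * r)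
    rw [Algebra.smul_def]

/-- the two `K`-module structures on `R₂ / I₂` agree -/
noncomputable def OdivEquiv₂ (I : Ideal (𝔠.R₁ K)) : (𝔠.R₂ K ⧸ I₂ I) ≃ₗ[K] (Odiv I).N₂ where
  toFun := id
  invFun := id
  left_inv _ := rfl
  right_inv _ := rfl
  map_add' _ _ := rfl
  map_smul' a n := by
    obtain ⟨r, rfl⟩ := Ideal.Quotient.mk_surjective n
    show Ideal.Quotient.mk (I₂ I) (a • r) = Ideal.Quotient.mk (I₂ I) (algebraMap K (𝔠.R₂ K) a * r)
    rw [Algebra.smul_def]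

theorem finite_Odiv₁ (I : Ideal (𝔠.R₁ K)) (hI : I ≠ ⊥) : Module.Finite K (Odiv I).N₁ := by
  have := 𝔠.isDomain_R₁ K
  have h : Module.Finite K (𝔠.R₁ K ⧸ I) :=
    RR.finite_quotient_of_ne_bot (𝔠.xA K) (𝔠.finite_xA K) I hI
  exact Module.Finite.equiv (OdivEquiv₁ I)

theorem finite_Odiv₂ (I : Ideal (𝔠.R₁ K)) (hI : I ≠ ⊥) : Module.Finite K (Odiv I).N₂ := by
  have := 𝔠.isDomain_R₂ K
  have h : Module.Finite K (𝔠.R₂ K ⧸ I₂ I) :=
    RR.finite_quotient_of_ne_bot (𝔠.yA K) (𝔠.finite_yA K) (I₂ I) (I₂_ne_bot I hI)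
  exact Module.Finite.equiv (OdivEquiv₂ I)

theorem chi_Odiv (I : Ideal (𝔠.R₁ K)) (hI : I ≠ ⊥) :
    (Odiv I).chi = Module.finrank K (𝔠.R₁ K ⧸ I) := by
  obtain ⟨p, hp, hpI⟩ := exists_monic_aeval_mem I hI
  have hbij := RR.Odiv_ρ₂_bijective I p hp hpI
  have h0 : (Odiv I).h0 = Module.finrank K (𝔠.R₁ K ⧸ I) :=
    (((Odiv I).H0EquivOfBijective₂ hbij).trans (OdivEquiv₁ I).symm).finrank_eq
  have h1 : (Odiv I).h1 = 0 := h1_eq_zero_of_surjective ((Odiv I).δ_surjective_of_ρ₂ hbij.2)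
  rw [chi, h0, h1]
  simp

theorem chi_tensor_Idiv {T : Triple 𝔠 K} (hT : T.IsInvertible) (I : Ideal (𝔠.R₁ K)) (hI : I ≠ ⊥) :
    (T.tensor (Idiv I)).chi = T.chi - Module.finrank K (𝔠.R₁ K ⧸ I) := by
  have := finite_Odiv₁ I hI
  have := finite_Odiv₂ I hI
  have h := RR.chi_tensor_of_shortExact hT (isInvertible_Idiv I hI) unit_isInvertible
    (RR.isQC_Odiv I) (Idiv.shortExact I)
  rw [(tensorUnit T).chi_eq, chi_Odiv I hI] at h
  rw [h]
  ring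

theorem graphIdeal₁_eq_ker (σ : 𝔠.B₁ →ₐ[k] K) :
    graphIdeal₁ σ = RingHom.ker (Points.ofPoint σ) := rfl

theorem graphIdeal₁_ne_bot (σ : 𝔠.B₁ →ₐ[k] K) : graphIdeal₁ σ ≠ ⊥ := by
  rw [graphIdeal₁_eq_ker]
  exact Points.ne_bot_of_finite_quotient 𝔠.trans₁ _ (Points.finite_quot_ker (Points.ofPoint σ))

theorem finrank_quot_graphIdeal₁ (σ : 𝔠.B₁ →ₐ[k] K) :
    Module.finrank K (𝔠.R₁ K ⧸ graphIdeal₁ σ) = 1 := by
  rw [graphIdeal₁_eq_ker]
  exact Points.finrank_quot_ker (Points.ofPoint σ)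

theorem isInvertible_Ipt (σ : 𝔠.B₁ →ₐ[k] K) : (Ipt σ).IsInvertible :=
  isInvertible_Idiv _ (graphIdeal₁_ne_bot σ)

theorem chi_tensor_Ipt {T : Triple 𝔠 K} (hT : T.IsInvertible) (σ : 𝔠.B₁ →ₐ[k] K) :
    (T.tensor (Ipt σ)).chi = T.chi - 1 := by
  have h := chi_tensor_Idiv hT _ (graphIdeal₁_ne_bot σ)
  rw [finrank_quot_graphIdeal₁] at h
  exact h

/-- If `H¹(T) = 0` and some section of `T` does not vanish at `σ` then `H¹(T(-σ)) = 0`. -/
theorem h1_tensor_Ipt_eq_zero {T : Triple 𝔠 K} (hT : T.IsInvertible) (σ : 𝔠.B₁ →ₐ[k] K)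
    (h1 : T.h1 = 0) (s : T.H0)
    (hs : s.1.1 ∉ graphIdeal₁ σ • (⊤ : Submodule (𝔠.R₁ K) T.N₁)) :
    (T.tensor (Ipt σ)).h1 = 0 := by
  set I := graphIdeal₁ σ with hIdef
  have hI : I ≠ ⊥ := graphIdeal₁_ne_bot σ
  have E := ShortExact.tensorLeft hT (Idiv.shortExact I)
  -- `H¹(T ⊗ 𝒪) = 0`
  have hTU : (T.tensor (unit 𝔠 K)).h1 = 0 := by rw [(tensorUnit T).h1_eq, h1]
  have hTUinv : (T.tensor (unit 𝔠 K)).IsInvertible := hT.tensor unit_isInvertible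
  have hsurj : Surjective (T.tensor (unit 𝔠 K)).δ :=
    (RR.h1_eq_zero_iff (RR.finCoh hTUinv)).mp hTU
  have hsub : Subsingleton (T.tensor (unit 𝔠 K)).H1 := subsingleton_H1_of_surjective _ hsurj
  -- `H⁰(T ⊗ 𝒪_σ)` has dimension one
  obtain ⟨p, hp, hpI⟩ := exists_monic_aeval_mem I hI
  have hbij := RR.tensor_Odiv_ρ₂_bijective hT.toIsQC I p hp hpI
  have := finite_Odiv₁ I hI
  obtain ⟨hfin, hrank⟩ := RR.finite_tensor₁ (Q := Odiv I) hT
  have hdim : Module.finrank K (T.tensor (Odiv I)).H0 = 1 := by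
    rw [((T.tensor (Odiv I)).H0EquivOfBijective₂ hbij).finrank_eq, hrank,
      ← (OdivEquiv₁ I).finrank_eq, finrank_quot_graphIdeal₁]
  -- the section
  let s' : (T.tensor (unit 𝔠 K)).H0 := (tensorUnit T).symm.kerEquiv s
  set v := ((Hom.id T).tensor (Idiv.proj I)).mapH0 s' with hv
  have hv0 : v ≠ 0 := by
    intro h
    have h2 : v.1.1 = 0 := by rw [h]; rfl
    have h3 : v.1.1 = s.1.1 ⊗ₜ[𝔠.R₁ K] (Ideal.Quotient.mk I 1) := rfl
    apply hs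
    have h4 : s.1.1 ⊗ₜ[𝔠.R₁ K] (Ideal.Quotient.mk I 1) = (0 : T.N₁ ⊗[𝔠.R₁ K] (𝔠.R₁ K ⧸ I)) :=
      h3.symm.trans h2
    have h5 := congrArg (TensorProduct.tensorQuotEquivQuotSMul T.N₁ I) h4
    rw [map_zero, TensorProduct.tensorQuotEquivQuotSMul_tmul_mk, one_smul,
      Submodule.Quotient.mk_eq_zero] at h5
    exact h5
  have hall := (finrank_eq_one_iff_of_nonzero' v hv0).mp hdim
  have hgsurj : Surjective ((Hom.id T).tensor (Idiv.proj I)).mapH0 := by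
    intro w
    obtain ⟨c, rfl⟩ := hall w
    exact ⟨c • s', map_smul _ _ _⟩
  -- conclusion
  have key : ∀ a : (T.tensor (Idiv I)).H1, a = 0 := by
    intro a
    have h5 : ((Hom.id T).tensor (Idiv.incl I)).mapH1 a = 0 := Subsingleton.elim _ _
    obtain ⟨w, rfl⟩ := (E.exact_conn_mapH1 a).mp h5
    obtain ⟨z, rfl⟩ := hgsurj w
    exact E.exact_mapH0_conn.apply_apply_eq_zero z
  have hsub' : Subsingleton (T.tensor (Idiv I)).H1 := ⟨fun a b => by rw [key a, key b]⟩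
  show Module.finrank K (T.tensor (Idiv I)).H1 = 0
  exact Module.finrank_zero_of_subsingleton

end X6

end Fermat.Agent.S25.RR
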