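/-
S25 / block X, section X8: the twists `𝒪(j D_∞)`: invertible, rigid, additive,
`χ(T(j D_∞)) = χ(T) + j · deg D_∞`.   (helper187)
-/
import Fermat.Agent.S25.RR.Base
import Fermat.Agent.S25.RR.TensorTorsion
import Fermat.Agent.S25.Charts.Otw
import Fermat.Agent.S25.Triple.Torsion

set_option autoImplicit false

universe u

open scoped TensorProduct
open Function

namespace Fermat.Agent.S25.RR

/-! ### auxiliary commutative algebra -/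

namespace OtwAux

/-- `R / x R` is a finite `A`-module as soon as `R = (f.g. A-module) + x R`. -/
theorem finite_quot_of_finModX {A R : Type*} [CommRing A] [CommRing R] [Algebra A R] {x : R}
    (h : Fermat.Agent.S25.OtwAux.FinModX A R x) : Module.Finite A (R ⧸ Ideal.span {x}) := by
  obtain ⟨G, hG⟩ := h
  let π : R →ₗ[A] R ⧸ Ideal.span {x} := (Ideal.Quotient.mkₐ A (Ideal.span {x})).toLinearMap
  have htop : Submodule.map π (Submodule.span A (G : Set R)) = ⊤ := by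
    rw [eq_top_iff]
    intro z _
    obtain ⟨r, rfl⟩ := Ideal.Quotient.mk_surjective z
    obtain ⟨s, hs, n', rfl⟩ := hG r
    refine ⟨s, hs, ?_⟩
    change Ideal.Quotient.mk _ s = Ideal.Quotient.mk _ (s + x • n')
    rw [map_add, left_eq_add, Ideal.Quotient.eq_zero_iff_mem, smul_eq_mul]
    exact Ideal.mul_mem_right _ _ (Ideal.mem_span_singleton_self x)
  exact ⟨htop ▸ (Submodule.fg_span (Finset.finite_toSet G)).map π⟩

/-- `(K ⊗ B) / (1 ⊗ y) = K ⊗ (B / y)`, on the level of dimensions. -/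
theorem finrank_tensor_quot (k K B : Type*) [Field k] [Field K] [Algebra k K] [CommRing B]
    [Algebra k B] (y : B) :
    Module.finrank K ((K ⊗[k] B) ⧸ Ideal.span {(1 : K) ⊗ₜ[k] y}) =
      Module.finrank k (B ⧸ Ideal.span {y}) := by
  let π : B →ₗ[k] B ⧸ Ideal.span {y} := (Ideal.Quotient.mkₐ k (Ideal.span {y})).toLinearMap
  let μ : B →ₗ[k] B := LinearMap.mulLeft k y
  have hπ : Surjective π := Ideal.Quotient.mk_surjective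
  have hex : Exact μ π := by
    intro b
    change Ideal.Quotient.mk _ b = 0 ↔ _
    rw [Ideal.Quotient.eq_zero_iff_mem, Ideal.mem_span_singleton']
    constructor
    · rintro ⟨a, rfl⟩
      exact ⟨a, mul_comm _ _⟩
    · rintro ⟨a, rfl⟩
      exact ⟨a, mul_comm _ _⟩
  have hex' := lTensor_exact K hex hπ
  have hμ : ∀ t : K ⊗[k] B, LinearMap.lTensor K μ t = ((1 : K) ⊗ₜ[k] y) * t := by
    intro t
    induction t using TensorProduct.induction_on with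
    | zero => simp
    | tmul a b =>
      rw [LinearMap.lTensor_tmul, Algebra.TensorProduct.tmul_mul_tmul, one_mul]
      rfl
    | add s t hs ht => rw [map_add, hs, ht, mul_add]
  let F : K ⊗[k] B →ₗ[K] K ⊗[k] (B ⧸ Ideal.span {y}) := π.baseChange K
  have hF : ∀ t, F t = LinearMap.lTensor K π t := fun t => by
    change (π.baseChange K : K ⊗[k] B → K ⊗[k] (B ⧸ Ideal.span {y})) t = _
    rw [LinearMap.baseChange_eq_ltensor]
  have hFs : Surjective F := fun z => by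
    obtain ⟨t, ht⟩ := LinearMap.lTensor_surjective K hπ z
    exact ⟨t, (hF t).trans ht⟩
  have hker : LinearMap.ker F =
      (Ideal.span {(1 : K) ⊗ₜ[k] y} : Ideal (K ⊗[k] B)).restrictScalars K := by
    ext t
    rw [LinearMap.mem_ker, hF, hex' t, Submodule.restrictScalars_mem,
      Ideal.mem_span_singleton']
    constructor
    · rintro ⟨a, rfl⟩
      exact ⟨a, by rw [hμ, mul_comm]⟩
    · rintro ⟨a, rfl⟩
      exact ⟨a, by rw [hμ, mul_comm]⟩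
  rw [← (Submodule.Quotient.restrictScalarsEquiv K
      (Ideal.span {(1 : K) ⊗ₜ[k] y} : Ideal (K ⊗[k] B))).finrank_eq,
    ← (Submodule.quotEquivOfEq _ _ hker).finrank_eq,
    (LinearMap.quotKerEquivOfSurjective F hFs).finrank_eq, Module.finrank_baseChange]

end OtwAux

open Triple TensorAux

variable {k : Type u} [Field k] {𝔠 : CurveCharts k}

section X8

variable (𝔠)

/-- `y` is not a unit of `B₂` (otherwise `x` would be a global function). -/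
theorem OtwAux.not_isUnit_y : ¬ IsUnit 𝔠.y := by
  intro h
  obtain ⟨z, hz⟩ := h.exists_right_inv
  have h1 : algebraMap 𝔠.B₂ 𝔠.B₁₂ 𝔠.y * algebraMap 𝔠.B₂ 𝔠.B₁₂ z = 1 := by
    rw [← map_mul, hz, map_one]
  have h2 : algebraMap 𝔠.B₁ 𝔠.B₁₂ 𝔠.x = algebraMap 𝔠.B₂ 𝔠.B₁₂ z := by
    calc algebraMap 𝔠.B₁ 𝔠.B₁₂ 𝔠.x
        = algebraMap 𝔠.B₁ 𝔠.B₁₂ 𝔠.x *
            (algebraMap 𝔠.B₂ 𝔠.B₁₂ 𝔠.y * algebraMap 𝔠.B₂ 𝔠.B₁₂ z) := by rw [h1, mul_one]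
      _ = (algebraMap 𝔠.B₁ 𝔠.B₁₂ 𝔠.x * algebraMap 𝔠.B₂ 𝔠.B₁₂ 𝔠.y) *
            algebraMap 𝔠.B₂ 𝔠.B₁₂ z := by ring
      _ = algebraMap 𝔠.B₂ 𝔠.B₁₂ z := by rw [𝔠.xy, one_mul]
  obtain ⟨c, hc⟩ := 𝔠.const _ _ h2
  exact 𝔠.trans₁ (hc ▸ isAlgebraic_algebraMap c)

variable (A : Type u) [CommRing A] [Algebra k A]

theorem OtwAux.finite_R₂_quot : Module.Finite A (𝔠.R₂ A ⧸ Ideal.span {𝔠.yA A}) :=
  OtwAux.finite_quot_of_finModX
    (Fermat.Agent.S25.OtwAux.finModX_of_finite 𝔠.y 𝔠.fin₂).tensor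

theorem OtwAux.yA_mul_injective : Injective (fun r : 𝔠.R₂ A => r * 𝔠.yA A) := by
  intro a b hab
  apply res₂_injective 𝔠 A
  have h : 𝔠.res₂ A a * 𝔠.res₂ A (𝔠.yA A) = 𝔠.res₂ A b * 𝔠.res₂ A (𝔠.yA A) := by
    rw [← map_mul, ← map_mul]
    exact congrArg _ hab
  exact (isUnit_res₂_yA 𝔠 A).mul_right_cancel h

theorem isInvertible_Otw (j : ℕ) : (Otw 𝔠 A j).IsInvertible where
  surj₁ := (unit_isQC (𝔠 := 𝔠) (A := A)).surj₁
  inj₁ := (unit_isQC (𝔠 := 𝔠) (A := A)).inj₁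
  surj₂ := Fermat.Agent.S25.OtwAux.surj₂_aux j
  inj₂ := Fermat.Agent.S25.OtwAux.inj₂_aux j
  inv₁ := inferInstanceAs (Module.Invertible (𝔠.R₁ A) (𝔠.R₁ A))
  inv₂ := inferInstanceAs (Module.Invertible (𝔠.R₂ A) (𝔠.R₂ A))

theorem isRigid_Otw (j : ℕ) : (Otw 𝔠 A j).IsRigid := unit_isRigid (𝔠 := 𝔠) (A := A)

theorem Otw_shortExact (j : ℕ) : ShortExact (Otw.step 𝔠 A j) (Otw.proj 𝔠 A j) where
  inj₁ := injective_id
  inj₂ := OtwAux.yA_mul_injective 𝔠 A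
  inj₁₂ := injective_id
  exact₁ := fun n => ⟨fun _ => ⟨n, rfl⟩, fun _ => (Submodule.Quotient.mk_eq_zero _).2 trivial⟩
  exact₂ := fun (n : 𝔠.R₂ A) => by
    change (Submodule.Quotient.mk n : 𝔠.R₂ A ⧸ (Ideal.span {𝔠.yA A} : Ideal (𝔠.R₂ A))) = 0 ↔
      ∃ r : 𝔠.R₂ A, r * 𝔠.yA A = n
    rw [Submodule.Quotient.mk_eq_zero, Ideal.mem_span_singleton']
  exact₁₂ := fun n => ⟨fun _ => ⟨n, rfl⟩, fun _ => (Submodule.Quotient.mk_eq_zero _).2 trivial⟩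
  surj₁ := Submodule.mkQ_surjective _
  surj₂ := Submodule.mkQ_surjective _
  surj₁₂ := Submodule.mkQ_surjective _

instance OtwAux.subsingleton_Oinf₁ (j : ℕ) : Subsingleton (Oinf 𝔠 A j).N₁ :=
  inferInstanceAs (Subsingleton ((Otw 𝔠 A (j + 1)).N₁ ⧸
    (⊤ : Submodule (𝔠.R₁ A) (Otw 𝔠 A (j + 1)).N₁)))

instance OtwAux.subsingleton_Oinf₁₂ (j : ℕ) : Subsingleton (Oinf 𝔠 A j).N₁₂ :=
  inferInstanceAs (Subsingleton ((Otw 𝔠 A (j + 1)).N₁₂ ⧸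
    (⊤ : Submodule (𝔠.R₁₂ A) (Otw 𝔠 A (j + 1)).N₁₂)))

theorem isQC_Oinf (j : ℕ) : (Oinf 𝔠 A j).IsQC where
  surj₁ := fun _ => ⟨0, 0, Subsingleton.elim _ _⟩
  inj₁ := fun _ _ => ⟨0, Subsingleton.elim _ _⟩
  surj₂ := fun _ => ⟨0, 0, Subsingleton.elim _ _⟩
  inj₂ := fun n _ => by
    refine ⟨1, ?_⟩
    obtain ⟨r, rfl⟩ := Submodule.Quotient.mk_surjective _ n
    rw [pow_one]
    have h : 𝔠.yA A * (show 𝔠.R₂ A from r) ∈ (Ideal.span {𝔠.yA A} : Ideal (𝔠.R₂ A)) :=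
      Ideal.mul_mem_right _ _ (Ideal.mem_span_singleton_self (𝔠.yA A))
    exact (Submodule.Quotient.mk_eq_zero _).2 h

theorem nonempty_iso_Otw_zero : Nonempty (Iso (Otw 𝔠 A 0) (unit 𝔠 A)) :=
  ⟨{ e₁ := LinearEquiv.refl _ _
     e₂ := LinearEquiv.refl _ _
     e₁₂ := LinearEquiv.refl _ _
     comm₁ := fun _ => rfl
     comm₂ := fun (n : 𝔠.R₂ A) => by
      change (𝔠.res₁ A (𝔠.xA A)) ^ 0 * 𝔠.res₂ A n = 𝔠.res₂ A n
      rw [pow_zero, one_mul] }⟩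

theorem nonempty_iso_Otw_add (i j : ℕ) :
    Nonempty (Iso ((Otw 𝔠 A i).tensor (Otw 𝔠 A j)) (Otw 𝔠 A (i + j))) := by
  refine ⟨Iso.symm
   { e₁ := (TensorProduct.lid (𝔠.R₁ A) (𝔠.R₁ A)).symm
     e₂ := (TensorProduct.lid (𝔠.R₂ A) (𝔠.R₂ A)).symm
     e₁₂ := (TensorProduct.lid (𝔠.R₁₂ A) (𝔠.R₁₂ A)).symm
     comm₁ := fun n => by
      change (1 : 𝔠.R₁₂ A) ⊗ₜ[𝔠.R₁₂ A] (𝔠.res₁ A n) =
        (𝔠.res₁ A 1) ⊗ₜ[𝔠.R₁₂ A] (𝔠.res₁ A n)
      rw [map_one]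
     comm₂ := fun n => by
      change (1 : 𝔠.R₁₂ A) ⊗ₜ[𝔠.R₁₂ A] ((𝔠.res₁ A (𝔠.xA A)) ^ (i + j) * 𝔠.res₂ A n) =
        ((𝔠.res₁ A (𝔠.xA A)) ^ i * 𝔠.res₂ A 1) ⊗ₜ[𝔠.R₁₂ A]
          ((𝔠.res₁ A (𝔠.xA A)) ^ j * 𝔠.res₂ A n)
      rw [map_one, mul_one, pow_add, mul_assoc]
      conv_rhs => rw [← mul_one ((𝔠.res₁ A (𝔠.xA A)) ^ i), ← smul_eq_mul,
        TensorProduct.smul_tmul, smul_eq_mul] }⟩

theorem degInf_pos : 0 < 𝔠.degInf := by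
  have hfin : Module.Finite k (𝔠.B₂ ⧸ Ideal.span {𝔠.y}) :=
    OtwAux.finite_quot_of_finModX (Fermat.Agent.S25.OtwAux.finModX_of_finite 𝔠.y 𝔠.fin₂)
  have hnt : Nontrivial (𝔠.B₂ ⧸ Ideal.span {𝔠.y}) :=
    Ideal.Quotient.nontrivial_iff.2 fun h =>
      OtwAux.not_isUnit_y 𝔠 (Ideal.span_singleton_eq_top.1 h)
  exact Module.finrank_pos

variable (K : Type u) [Field K] [Algebra k K]

/-- the identity, as a `K`-linear equivalence -/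
noncomputable def OtwAux.equivOinf₂ (j : ℕ) :
    (𝔠.R₂ K ⧸ Ideal.span {𝔠.yA K}) ≃ₗ[K] (Oinf 𝔠 K j).N₂ :=
  (show (𝔠.R₂ K ⧸ Ideal.span {𝔠.yA K}) ≃ₗ[𝔠.R₂ K] (Oinf 𝔠 K j).N₂ from
    LinearEquiv.refl _ _).restrictScalars K

theorem finite_Oinf₁ (j : ℕ) : Module.Finite K (Oinf 𝔠 K j).N₁ := inferInstance

theorem finite_Oinf₂ (j : ℕ) : Module.Finite K (Oinf 𝔠 K j).N₂ :=
  have := OtwAux.finite_R₂_quot 𝔠 K
  Module.Finite.equiv (OtwAux.equivOinf₂ 𝔠 K j)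

theorem chi_Oinf (j : ℕ) : (Oinf 𝔠 K j).chi = 𝔠.degInf := by
  have := finite_Oinf₁ 𝔠 K j
  have := finite_Oinf₂ 𝔠 K j
  have h₁ : Module.finrank K (Oinf 𝔠 K j).N₁ = 0 := Module.finrank_zero_of_subsingleton
  have h₁₂ : Module.finrank K (Oinf 𝔠 K j).N₁₂ = 0 := Module.finrank_zero_of_subsingleton
  have h : Module.finrank K (𝔠.R₂ K ⧸ Ideal.span {𝔠.yA K}) = 𝔠.degInf :=
    OtwAux.finrank_tensor_quot k K 𝔠.B₂ 𝔠.y
  rw [(isQC_Oinf 𝔠 K j).chi_of_finite, h₁, h₁₂, ← (OtwAux.equivOinf₂ 𝔠 K j).finrank_eq, h]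
  simp

variable {𝔠 K}

theorem chi_tensor_Otw {T : Triple 𝔠 K} (hT : T.IsInvertible) (j : ℕ) :
    (T.tensor (Otw 𝔠 K j)).chi = T.chi + j * 𝔠.degInf := by
  induction j with
  | zero =>
    obtain ⟨e⟩ := nonempty_iso_Otw_zero 𝔠 K
    rw [(((Iso.refl T).tensor e).trans (tensorUnit T)).chi_eq]
    simp
  | succ j ih =>
    have := finite_Oinf₁ 𝔠 K j
    have := finite_Oinf₂ 𝔠 K j
    rw [RR.chi_tensor_of_shortExact hT (isInvertible_Otw 𝔠 K j)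
      (isInvertible_Otw 𝔠 K (j + 1)) (isQC_Oinf 𝔠 K j) (Otw_shortExact 𝔠 K j), ih, chi_Oinf]
    push_cast
    ring

end X8

end Fermat.Agent.S25.RR
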