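/-
S25 / block X, section X7: the marked point `P₀`.   Owner: helper270.
Statements verbatim from `WIP/RRSkeleton.lean` (section X7).
Results of the sections X3, X5 are cited from the skeleton (`RRSkel.*`).
-/
import Fermat.Agent.S25.RR.Base
import Fermat.Agent.S25.RR.TensorTorsion
import Fermat.Agent.S25.Charts.Marked
import Fermat.Agent.S25.Charts.FieldBasic

set_option autoImplicit false

universe u

open scoped TensorProduct
open Function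

namespace Fermat.Agent.S25.RR

open Triple

variable {k : Type u} [Field k] {𝔠 : CurveCharts k}

section X7

variable (𝔠)

theorem e₀_y : 𝔠.e₀ 𝔠.y = 0 := 𝔠.e₀_y

theorem exists_pow_ker_e₀_le : ∃ N : ℕ, (RingHom.ker 𝔠.e₀) ^ N ≤ Ideal.span {𝔠.y} := by
  have hN : IsNoetherianRing 𝔠.B₂ := Algebra.FiniteType.isNoetherianRing k 𝔠.B₂
  have hrad : (Ideal.span {𝔠.y}).radical = RingHom.ker 𝔠.e₀ := by
    rw [Ideal.radical_eq_sInf]
    apply le_antisymm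
    · apply sInf_le
      refine ⟨?_, RingHom.ker_isPrime _⟩
      rw [Ideal.span_singleton_le_iff_mem]
      exact 𝔠.e₀_y
    · apply le_sInf
      rintro J ⟨hJ, hJp⟩
      rw [𝔠.pole J hJp (hJ (Ideal.mem_span_singleton_self _))]
  obtain ⟨n, hn⟩ := Ideal.exists_radical_pow_le_of_fg (Ideal.span {𝔠.y})
    (IsNoetherian.noetherian _)
  exact ⟨n, hrad ▸ hn⟩

/-- `ev₀` is the section attached to the constant point `P₀`. -/
theorem ev₀_eq_ofPoint (A : Type u) [CommRing A] [Algebra k A] (z : 𝔠.R₂ A) :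
    𝔠.ev₀ A z = Points.ofPoint ((Algebra.ofId k A).comp 𝔠.e₀) z := by
  induction z using TensorProduct.induction_on with
  | zero => simp
  | tmul a b => rw [𝔠.ev₀_tmul, Points.ofPoint_tmul]; rfl
  | add z₁ z₂ h₁ h₂ => rw [map_add, map_add, h₁, h₂]

/-- The ideal of the marked section is generated by the ideal of the marked point. -/
theorem ker_ev₀_eq_map (A : Type u) [CommRing A] [Algebra k A] :
    RingHom.ker (𝔠.ev₀ A).toRingHom = (RingHom.ker 𝔠.e₀).map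
      (Algebra.TensorProduct.includeRight : 𝔠.B₂ →ₐ[k] 𝔠.R₂ A).toRingHom := by
  have h1 : RingHom.ker (𝔠.ev₀ A).toRingHom =
      RingHom.ker (Points.ofPoint ((Algebra.ofId k A).comp 𝔠.e₀)) := by
    ext z
    rw [RingHom.mem_ker, RingHom.mem_ker]
    change 𝔠.ev₀ A z = 0 ↔ _
    rw [ev₀_eq_ofPoint]
  rw [h1, Points.ker_ofPoint_eq_span]
  apply le_antisymm
  · rw [Ideal.span_le]
    rintro _ ⟨b, rfl⟩
    have h2 : (1 : A) ⊗ₜ[k] b - ((Algebra.ofId k A).comp 𝔠.e₀) b ⊗ₜ[k] (1 : 𝔠.B₂) =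
        (Algebra.TensorProduct.includeRight : 𝔠.B₂ →ₐ[k] 𝔠.R₂ A).toRingHom
          (b - algebraMap k 𝔠.B₂ (𝔠.e₀ b)) := by
      change _ = (1 : A) ⊗ₜ[k] (b - algebraMap k 𝔠.B₂ (𝔠.e₀ b))
      rw [TensorProduct.tmul_sub]
      congr 1
      change (algebraMap k A (𝔠.e₀ b)) ⊗ₜ[k] (1 : 𝔠.B₂) = _
      rw [Algebra.algebraMap_eq_smul_one, Algebra.algebraMap_eq_smul_one, TensorProduct.smul_tmul]
    change (1 : A) ⊗ₜ[k] b - ((Algebra.ofId k A).comp 𝔠.e₀) b ⊗ₜ[k] (1 : 𝔠.B₂) ∈ _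
    rw [h2]
    apply Ideal.mem_map_of_mem
    rw [RingHom.mem_ker, map_sub, AlgHom.commutes]
    simp
  · rw [Ideal.map_le_iff_le_comap]
    intro b hb
    rw [Ideal.mem_comap]
    have h3 : (Algebra.TensorProduct.includeRight : 𝔠.B₂ →ₐ[k] 𝔠.R₂ A).toRingHom b =
        (1 : A) ⊗ₜ[k] b - ((Algebra.ofId k A).comp 𝔠.e₀) b ⊗ₜ[k] (1 : 𝔠.B₂) := by
      have : ((Algebra.ofId k A).comp 𝔠.e₀) b = 0 := by
        rw [AlgHom.comp_apply, (RingHom.mem_ker).1 hb, map_zero]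
      rw [this, TensorProduct.zero_tmul, sub_zero]
      rfl
    rw [h3]
    exact Ideal.subset_span ⟨b, rfl⟩

/-- `V(y) = P₀ × Spec A` set-theoretically, uniformly in `A`. -/
theorem exists_pow_ker_ev₀_le : ∃ N : ℕ, ∀ (A : Type u) [CommRing A] [Algebra k A],
    (RingHom.ker (𝔠.ev₀ A).toRingHom) ^ N ≤ Ideal.span {𝔠.yA A} := by
  obtain ⟨N, hN⟩ := exists_pow_ker_e₀_le 𝔠
  refine ⟨N, fun A _ _ => ?_⟩
  rw [ker_ev₀_eq_map, ← Ideal.map_pow]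
  refine (Ideal.map_mono hN).trans ?_
  rw [Ideal.map_span, Set.image_singleton]
  rfl

theorem yA_mem_ker_ev₀ (A : Type u) [CommRing A] [Algebra k A] :
    𝔠.yA A ∈ RingHom.ker (𝔠.ev₀ A).toRingHom := 𝔠.yA_mem_ker_ev₀ A

theorem J₁₂_ker_ev₀ (A : Type u) [CommRing A] [Algebra k A] :
    J₁₂ (RingHom.ker (𝔠.ev₀ A).toRingHom) = ⊤ := 𝔠.map_ker_ev₀ A

theorem J₁_ker_ev₀ (A : Type u) [CommRing A] [Algebra k A] :
    J₁ (RingHom.ker (𝔠.ev₀ A).toRingHom) = ⊤ := by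
  change Ideal.comap _ (J₁₂ (RingHom.ker (𝔠.ev₀ A).toRingHom)) = ⊤
  rw [J₁₂_ker_ev₀, Ideal.comap_top]

/-- `𝒪(-P₀)` is quasi-coherent (any base). -/
theorem isQC_IP0 (A : Type u) [CommRing A] [Algebra k A] : (IP0 𝔠 A).IsQC := by
  have e₁ : (J₁ (RingHom.ker (𝔠.ev₀ A).toRingHom)).map (𝔠.res₁ A) =
      J₁₂ (RingHom.ker (𝔠.ev₀ A).toRingHom) := by
    rw [J₁_ker_ev₀, J₁₂_ker_ev₀, Ideal.map_top]
  exact idealTriple_isQC unit_isQC e₁ rfl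

/-- `𝒪_{P₀}` is quasi-coherent (any base). -/
theorem isQC_OP0 (A : Type u) [CommRing A] [Algebra k A] :
    (Odiv₂ (RingHom.ker (𝔠.ev₀ A).toRingHom)).IsQC := by
  have e₁ : (J₁ (RingHom.ker (𝔠.ev₀ A).toRingHom)).map (𝔠.res₁ A) =
      J₁₂ (RingHom.ker (𝔠.ev₀ A).toRingHom) := by
    rw [J₁_ker_ev₀, J₁₂_ker_ev₀, Ideal.map_top]
  exact idealQuotTriple_isQC unit_isQC e₁ rfl

theorem subsingleton_OP0₁ (A : Type u) [CommRing A] [Algebra k A] :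
    Subsingleton (Odiv₂ (RingHom.ker (𝔠.ev₀ A).toRingHom)).N₁ := by
  change Subsingleton (𝔠.R₁ A ⧸ J₁ (RingHom.ker (𝔠.ev₀ A).toRingHom))
  rw [J₁_ker_ev₀]
  exact Submodule.Quotient.subsingleton_iff.2 rfl

theorem subsingleton_OP0₁₂ (A : Type u) [CommRing A] [Algebra k A] :
    Subsingleton (Odiv₂ (RingHom.ker (𝔠.ev₀ A).toRingHom)).N₁₂ := by
  change Subsingleton (𝔠.R₁₂ A ⧸ J₁₂ (RingHom.ker (𝔠.ev₀ A).toRingHom))
  rw [J₁₂_ker_ev₀]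
  exact Submodule.Quotient.subsingleton_iff.2 rfl

/-- the ring isomorphism `R₂ / ker ev₀ → A`, as a ring homomorphism -/
noncomputable def ev₀Bar (A : Type u) [CommRing A] [Algebra k A] :
    (𝔠.R₂ A ⧸ RingHom.ker (𝔠.ev₀ A).toRingHom) →+* A :=
  Ideal.Quotient.lift (RingHom.ker (𝔠.ev₀ A).toRingHom) (𝔠.ev₀ A).toRingHom (fun _ ha => ha)

theorem ev₀Bar_mk (A : Type u) [CommRing A] [Algebra k A] (r : 𝔠.R₂ A) :
    ev₀Bar 𝔠 A (Ideal.Quotient.mk _ r) = 𝔠.ev₀ A r := rfl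

theorem ev₀Bar_bijective (A : Type u) [CommRing A] [Algebra k A] : Bijective (ev₀Bar 𝔠 A) := by
  constructor
  · intro a b hab
    obtain ⟨r, rfl⟩ := Ideal.Quotient.mk_surjective a
    obtain ⟨r', rfl⟩ := Ideal.Quotient.mk_surjective b
    rw [ev₀Bar_mk, ev₀Bar_mk] at hab
    apply (Ideal.Quotient.eq).2
    change 𝔠.ev₀ A (r - r') = 0
    rw [map_sub, hab, sub_self]
  · intro a
    refine ⟨Ideal.Quotient.mk _ (algebraMap A (𝔠.R₂ A) a), ?_⟩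
    rw [ev₀Bar_mk, AlgHom.commutes]
    rfl

theorem ev₀Bar_smul (A : Type u) [CommRing A] [Algebra k A] (c : A)
    (z : 𝔠.R₂ A ⧸ RingHom.ker (𝔠.ev₀ A).toRingHom) :
    ev₀Bar 𝔠 A (algebraMap A (𝔠.R₂ A) c • z) = c * ev₀Bar 𝔠 A z := by
  obtain ⟨r, rfl⟩ := Ideal.Quotient.mk_surjective z
  change 𝔠.ev₀ A (algebraMap A (𝔠.R₂ A) c * r) = c * 𝔠.ev₀ A r
  rw [map_mul, AlgHom.commutes]
  rfl

/-- `Γ(W₂, 𝒪_{P₀}) = A`. -/
noncomputable def OP0Equiv (A : Type u) [CommRing A] [Algebra k A] :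
    (Odiv₂ (RingHom.ker (𝔠.ev₀ A).toRingHom)).N₂ ≃ₗ[A] A :=
  LinearEquiv.ofBijective
    ({ toFun := fun z => ev₀Bar 𝔠 A z
       map_add' := fun a b => map_add (ev₀Bar 𝔠 A) a b
       map_smul' := fun c z => ev₀Bar_smul 𝔠 A c z } :
      (Odiv₂ (RingHom.ker (𝔠.ev₀ A).toRingHom)).N₂ →ₗ[A] A)
    (ev₀Bar_bijective 𝔠 A)

variable {𝔠} [IsAlgClosed k] {K : Type u} [Field K] [Algebra k K]

theorem isInvertible_IP0 : (IP0 𝔠 K).IsInvertible where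
  toIsQC := isQC_IP0 𝔠 K
  inv₁ := by
    change Module.Invertible (𝔠.R₁ K) (J₁ (RingHom.ker (𝔠.ev₀ K).toRingHom))
    rw [J₁_ker_ev₀]
    exact Module.Invertible.congr (Submodule.topEquiv (R := 𝔠.R₁ K) (M := 𝔠.R₁ K)).symm
  inv₂ := by
    change Module.Invertible (𝔠.R₂ K) (RingHom.ker (𝔠.ev₀ K).toRingHom)
    have := 𝔠.isDedekindDomain_R₂ K
    apply Points.invertible_of_ne_bot
    intro h
    have h1 : 𝔠.yA K ∈ (⊥ : Ideal (𝔠.R₂ K)) := h ▸ yA_mem_ker_ev₀ 𝔠 K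
    have h2 : 𝔠.yA K = 0 := h1
    have h3 := TensorAux.isUnit_res₂_yA 𝔠 K
    rw [h2, map_zero] at h3
    have := 𝔠.isDomain_R₁₂ K
    exact not_isUnit_zero h3

theorem finite_OP0₁ : Module.Finite K (Odiv₂ (RingHom.ker (𝔠.ev₀ K).toRingHom)).N₁ := by
  have := subsingleton_OP0₁ 𝔠 K
  infer_instance

theorem finite_OP0₂ : Module.Finite K (Odiv₂ (RingHom.ker (𝔠.ev₀ K).toRingHom)).N₂ :=
  Module.Finite.equiv (OP0Equiv 𝔠 K).symm

theorem chi_OP0 : (Odiv₂ (RingHom.ker (𝔠.ev₀ K).toRingHom)).chi = 1 := by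
  have i₁ := finite_OP0₁ (𝔠 := 𝔠) (K := K)
  have i₂ := finite_OP0₂ (𝔠 := 𝔠) (K := K)
  have s₁ := subsingleton_OP0₁ 𝔠 K
  have s₁₂ := subsingleton_OP0₁₂ 𝔠 K
  have f₁ : Module.finrank K (Odiv₂ (RingHom.ker (𝔠.ev₀ K).toRingHom)).N₁ = 0 :=
    Module.finrank_zero_of_subsingleton
  have f₁₂ : Module.finrank K (Odiv₂ (RingHom.ker (𝔠.ev₀ K).toRingHom)).N₁₂ = 0 :=
    Module.finrank_zero_of_subsingleton
  rw [(isQC_OP0 𝔠 K).chi_of_finite, f₁, f₁₂, (OP0Equiv 𝔠 K).finrank_eq, Module.finrank_self]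
  norm_num

theorem chi_tensor_IP0 {T : Triple 𝔠 K} (hT : T.IsInvertible) :
    (T.tensor (IP0 𝔠 K)).chi = T.chi - 1 := by
  have i₁ := finite_OP0₁ (𝔠 := 𝔠) (K := K)
  have i₂ := finite_OP0₂ (𝔠 := 𝔠) (K := K)
  have h := RR.chi_tensor_of_shortExact hT (S' := IP0 𝔠 K) isInvertible_IP0 unit_isInvertible
    (isQC_OP0 𝔠 K) (Idiv₂.shortExact (RingHom.ker (𝔠.ev₀ K).toRingHom))
  rw [chi_OP0, (tensorUnit T).chi_eq] at h
  linarith

omit [IsAlgClosed k] in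
/-- An element of `𝔞 N` dies in `N ⊗ R/𝔞`. -/
theorem tmul_mk_one_eq_zero {R N : Type*} [CommRing R] [AddCommGroup N] [Module R N] (I : Ideal R)
    (n : N) (hn : n ∈ I • (⊤ : Submodule R N)) :
    n ⊗ₜ[R] (Submodule.Quotient.mk (1 : R) : R ⧸ I) = 0 := by
  induction hn using Submodule.smul_induction_on' with
  | smul a ha m _ =>
    rw [TensorProduct.smul_tmul]
    have : a • (Submodule.Quotient.mk (1 : R) : R ⧸ I) = 0 := by
      rw [← Submodule.Quotient.mk_smul, smul_eq_mul, mul_one]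
      exact (Submodule.Quotient.mk_eq_zero _).2 ha
    rw [this, TensorProduct.tmul_zero]
  | add x _ y _ hx hy => rw [TensorProduct.add_tmul, hx, hy, add_zero]

/-- If `H¹(T(-P₀)) = 0` then some section of `T` generates `T` at `P₀`. -/
theorem exists_section_not_mem {T : Triple 𝔠 K} (hT : T.IsInvertible)
    (h : (T.tensor (IP0 𝔠 K)).h1 = 0) : ∃ s : T.H0,
      s.1.2 ∉ RingHom.ker (𝔠.ev₀ K).toRingHom • (⊤ : Submodule (𝔠.R₂ K) T.N₂) := by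
  have i₁ := finite_OP0₁ (𝔠 := 𝔠) (K := K)
  have i₂ := finite_OP0₂ (𝔠 := 𝔠) (K := K)
  have s₁ := subsingleton_OP0₁ 𝔠 K
  -- the tensored exact sequence
  have E := (Idiv₂.shortExact (RingHom.ker (𝔠.ev₀ K).toRingHom)).tensorLeft hT
  -- `H¹(T(-P₀)) = 0`
  have hsub : Subsingleton (T.tensor (Idiv₂ (RingHom.ker (𝔠.ev₀ K).toRingHom))).H1 := by
    have hfin : Module.Finite K (T.tensor (IP0 𝔠 K)).H1 :=
      (finite_cohomology (T.tensor (IP0 𝔠 K)) (hT.tensor isInvertible_IP0)).2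
    have h' : Module.finrank K (T.tensor (IP0 𝔠 K)).H1 = 0 := h
    exact (Module.finrank_zero_iff (R := K) (M := (T.tensor (IP0 𝔠 K)).H1)).1 h'
  -- `H⁰(T ⊗ 𝒪_{P₀}) ≠ 0`
  obtain ⟨hfc, hh1, hchi⟩ := RR.chi_tensor_torsion hT (isQC_OP0 𝔠 K)
  have hh0 : (T.tensor (Odiv₂ (RingHom.ker (𝔠.ev₀ K).toRingHom))).h0 = 1 := by
    rw [chi_OP0, chi, hh1, Nat.cast_zero, sub_zero] at hchi
    exact_mod_cast hchi
  have hnt : Nontrivial (T.tensor (Odiv₂ (RingHom.ker (𝔠.ev₀ K).toRingHom))).H0 := by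
    apply Module.nontrivial_of_finrank_pos (R := K)
    have : Module.finrank K (T.tensor (Odiv₂ (RingHom.ker (𝔠.ev₀ K).toRingHom))).H0 = 1 := hh0
    omega
  obtain ⟨x, hx⟩ := exists_ne (0 : (T.tensor (Odiv₂ (RingHom.ker (𝔠.ev₀ K).toRingHom))).H0)
  -- lift it
  obtain ⟨s', hs'⟩ := (E.exact_mapH0_conn x).1 (Subsingleton.elim _ _)
  refine ⟨(tensorUnit T).kerEquiv s', fun hmem => hx ?_⟩
  rw [← hs']
  apply Subtype.ext
  apply Prod.ext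
  · have : Subsingleton (T.tensor (Odiv₂ (RingHom.ker (𝔠.ev₀ K).toRingHom))).N₁ :=
      inferInstanceAs (Subsingleton
        (T.N₁ ⊗[𝔠.R₁ K] (Odiv₂ (RingHom.ker (𝔠.ev₀ K).toRingHom)).N₁))
    exact Subsingleton.elim _ _
  · change ((Hom.id T).tensor (Idiv₂.proj (RingHom.ker (𝔠.ev₀ K).toRingHom))).f₂ s'.1.2 = 0
    have hmem' : TensorProduct.rid (𝔠.R₂ K) T.N₂ s'.1.2 ∈
        RingHom.ker (𝔠.ev₀ K).toRingHom • (⊤ : Submodule (𝔠.R₂ K) T.N₂) := hmem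
    have hn : s'.1.2 = (TensorProduct.rid (𝔠.R₂ K) T.N₂).symm
        (TensorProduct.rid (𝔠.R₂ K) T.N₂ s'.1.2) := (LinearEquiv.symm_apply_apply _ _).symm
    rw [hn, TensorProduct.rid_symm_apply]
    generalize TensorProduct.rid (𝔠.R₂ K) T.N₂ s'.1.2 = n at hmem'
    have h3 : ((Hom.id T).tensor (Idiv₂.proj (RingHom.ker (𝔠.ev₀ K).toRingHom))).f₂
        (n ⊗ₜ[𝔠.R₂ K] (1 : 𝔠.R₂ K)) =
        n ⊗ₜ[𝔠.R₂ K] (Submodule.Quotient.mk (1 : 𝔠.R₂ K) :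
          𝔠.R₂ K ⧸ RingHom.ker (𝔠.ev₀ K).toRingHom) := rfl
    exact h3.trans (tmul_mk_one_eq_zero (RingHom.ker (𝔠.ev₀ K).toRingHom) n hmem')

end X7

end Fermat.Agent.S25.RR
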