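/-
S25 / block X4 : a nonzero section gives `0 → 𝒪 → T → Q → 0`, `deg ≥ 0`, #zeros ≤ deg.
Owner: helper21.
-/
import Fermat.Agent.S25.RR.Base
import Fermat.Agent.S25.RR.FinCoh
import Fermat.Agent.S25.RR.Artin
import Fermat.Agent.S25.RR.ArtinB

set_option autoImplicit false

universe u

open scoped TensorProduct
open Function

namespace Fermat.Agent.S25.RR

open Triple

variable {k : Type u} [Field k] {𝔠 : CurveCharts k}

theorem secQuot_isQC {A : Type u} [CommRing A] [Algebra k A] {T : Triple 𝔠 A} (hT : T.IsQC)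
    (s : T.H0) : (T.secQuot s).IsQC := by
  unfold secQuot
  refine IsQC.quot hT ?_ ?_
  · rintro _ ⟨r, rfl⟩
    obtain ⟨m, r₁, hr⟩ := TensorAux.exists_res₁_eq 𝔠 A r
    refine ⟨m, (T.secHom s).f₁ r₁, ⟨r₁, rfl⟩, ?_⟩
    rw [← (T.secHom s).comm₁ r₁]
    change (T.secHom s).f₁₂ (𝔠.res₁ A r₁) = _
    rw [hr]
    exact (T.secHom s).f₁₂.map_smul ((𝔠.res₁ A (𝔠.xA A)) ^ m) r
  · rintro _ ⟨r, rfl⟩
    obtain ⟨m, r₂, hr⟩ := TensorAux.exists_res₂_eq 𝔠 A r
    refine ⟨m, (T.secHom s).f₂ r₂, ⟨r₂, rfl⟩, ?_⟩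
    rw [← (T.secHom s).comm₂ r₂]
    change (T.secHom s).f₁₂ (𝔠.res₂ A r₂) = _
    rw [hr]
    exact (T.secHom s).f₁₂.map_smul ((𝔠.res₂ A (𝔠.yA A)) ^ m) r

variable [IsAlgClosed k] {K : Type u} [Field K] [Algebra k K] {T : Triple 𝔠 K}

theorem Section.xA_ne_zero : 𝔠.xA K ≠ 0 := by
  intro h
  have h1 := TensorAux.res₁_xA_mul_res₂_yA 𝔠 K
  rw [h, map_zero, zero_mul] at h1
  have := 𝔠.isDomain_R₁₂ K
  exact zero_ne_one h1

theorem Section.yA_ne_zero : 𝔠.yA K ≠ 0 := by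
  intro h
  have h1 := TensorAux.res₁_xA_mul_res₂_yA 𝔠 K
  rw [h, map_zero, mul_zero] at h1
  have := 𝔠.isDomain_R₁₂ K
  exact zero_ne_one h1

theorem ρ₁_injective (hT : T.IsInvertible) : Injective T.ρ₁ := by
  rw [injective_iff_map_eq_zero]
  intro n hn
  obtain ⟨m, hm⟩ := hT.inj₁ n hn
  have := 𝔠.isDomain_R₁ K
  have := hT.inv₁
  rcases RR.eq_zero_or_eq_zero_of_smul_eq_zero _ _ hm with h | h
  · exact absurd h (pow_ne_zero m Section.xA_ne_zero)
  · exact h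

theorem ρ₂_injective (hT : T.IsInvertible) : Injective T.ρ₂ := by
  rw [injective_iff_map_eq_zero]
  intro n hn
  obtain ⟨m, hm⟩ := hT.inj₂ n hn
  have := 𝔠.isDomain_R₂ K
  have := hT.inv₂
  rcases RR.eq_zero_or_eq_zero_of_smul_eq_zero _ _ hm with h | h
  · exact absurd h (pow_ne_zero m Section.yA_ne_zero)
  · exact h

theorem Section.fst_ne_zero (hT : T.IsInvertible) (s : T.H0) (hs : s ≠ 0) : s.1.1 ≠ 0 := by
  intro h
  apply hs
  have h2 : T.ρ₂ s.1.2 = 0 := by rw [← H0.ρ_eq s, h, map_zero]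
  have h3 : s.1.2 = 0 := ρ₂_injective hT (h2.trans (map_zero _).symm)
  exact Subtype.ext (Prod.ext h h3)

theorem Section.snd_ne_zero (hT : T.IsInvertible) (s : T.H0) (hs : s ≠ 0) : s.1.2 ≠ 0 := by
  intro h
  apply hs
  have h2 : T.ρ₁ s.1.1 = 0 := by rw [H0.ρ_eq s, h, map_zero]
  have h3 : s.1.1 = 0 := ρ₁_injective hT (h2.trans (map_zero _).symm)
  exact Subtype.ext (Prod.ext h3 h)

theorem Section.ρ₁_fst_ne_zero (hT : T.IsInvertible) (s : T.H0) (hs : s ≠ 0) :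
    T.ρ₁ s.1.1 ≠ 0 := by
  intro h
  exact Section.fst_ne_zero hT s hs (ρ₁_injective hT (h.trans (map_zero _).symm))

theorem secHom_shortExact (hT : T.IsInvertible) (s : T.H0) (hs : s ≠ 0) :
    ShortExact (T.secHom s) (T.secProj s) where
  inj₁ := by
    rw [injective_iff_map_eq_zero]
    intro r hr
    have := 𝔠.isDomain_R₁ K
    have := hT.inv₁
    exact (RR.eq_zero_or_eq_zero_of_smul_eq_zero (R := 𝔠.R₁ K) r s.1.1 hr).resolve_right
      (Section.fst_ne_zero hT s hs)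
  inj₂ := by
    rw [injective_iff_map_eq_zero]
    intro r hr
    have := 𝔠.isDomain_R₂ K
    have := hT.inv₂
    exact (RR.eq_zero_or_eq_zero_of_smul_eq_zero (R := 𝔠.R₂ K) r s.1.2 hr).resolve_right
      (Section.snd_ne_zero hT s hs)
  inj₁₂ := by
    rw [injective_iff_map_eq_zero]
    intro r hr
    have := 𝔠.isDomain_R₁₂ K
    have := hT.inv₁₂
    exact (RR.eq_zero_or_eq_zero_of_smul_eq_zero (R := 𝔠.R₁₂ K) r (T.ρ₁ s.1.1) hr).resolve_right
      (Section.ρ₁_fst_ne_zero hT s hs)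
  exact₁ := LinearMap.exact_map_mkQ_range _
  exact₂ := LinearMap.exact_map_mkQ_range _
  exact₁₂ := LinearMap.exact_map_mkQ_range _
  surj₁ := Submodule.mkQ_surjective _
  surj₂ := Submodule.mkQ_surjective _
  surj₁₂ := Submodule.mkQ_surjective _

theorem secQuot_finite₁ (hT : T.IsInvertible) (s : T.H0) (hs : s ≠ 0) :
    Module.Finite K (T.secQuot s).N₁ := by
  have := 𝔠.isDomain_R₁ K
  have := hT.inv₁
  obtain ⟨a, ha, h⟩ := RR.exists_ne_zero_forall_smul_mem_span (R := 𝔠.R₁ K) s.1.1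
    (Section.fst_ne_zero hT s hs)
  have hfin : Module.Finite (𝔠.R₁ K) (T.secQuot s).N₁ :=
    inferInstanceAs (Module.Finite (𝔠.R₁ K) (T.N₁ ⧸ LinearMap.range (T.secHom s).f₁))
  refine RR.finite_of_smul_eq_zero (R := 𝔠.R₁ K) (𝔠.xA K) (𝔠.finite_xA K) a ha ?_
  intro m
  obtain ⟨n, rfl⟩ := Submodule.Quotient.mk_surjective _ m
  change (Submodule.Quotient.mk (a • n) : T.N₁ ⧸ LinearMap.range (T.secHom s).f₁) = 0
  rw [Submodule.Quotient.mk_eq_zero]
  obtain ⟨r, hr⟩ := Submodule.mem_span_singleton.1 (h n)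
  exact ⟨r, hr⟩

theorem secQuot_finite₂ (hT : T.IsInvertible) (s : T.H0) (hs : s ≠ 0) :
    Module.Finite K (T.secQuot s).N₂ := by
  have := 𝔠.isDomain_R₂ K
  have := hT.inv₂
  obtain ⟨a, ha, h⟩ := RR.exists_ne_zero_forall_smul_mem_span (R := 𝔠.R₂ K) s.1.2
    (Section.snd_ne_zero hT s hs)
  have hfin : Module.Finite (𝔠.R₂ K) (T.secQuot s).N₂ :=
    inferInstanceAs (Module.Finite (𝔠.R₂ K) (T.N₂ ⧸ LinearMap.range (T.secHom s).f₂))
  refine RR.finite_of_smul_eq_zero (R := 𝔠.R₂ K) (𝔠.yA K) (𝔠.finite_yA K) a ha ?_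
  intro m
  obtain ⟨n, rfl⟩ := Submodule.Quotient.mk_surjective _ m
  change (Submodule.Quotient.mk (a • n) : T.N₂ ⧸ LinearMap.range (T.secHom s).f₂) = 0
  rw [Submodule.Quotient.mk_eq_zero]
  obtain ⟨r, hr⟩ := Submodule.mem_span_singleton.1 (h n)
  exact ⟨r, hr⟩

theorem deg_eq_chi_secQuot (hT : T.IsInvertible) (s : T.H0) (hs : s ≠ 0) :
    T.deg = (T.secQuot s).chi := by
  have := secQuot_finite₁ hT s hs
  have := secQuot_finite₂ hT s hs
  have h := (secHom_shortExact hT s hs).chi_add (RR.finCoh unit_isInvertible)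
    ((secQuot_isQC hT.toIsQC s).finCoh_of_finite)
  unfold Triple.deg
  rw [h]
  ring

theorem Section.finrank_le_chi (hT : T.IsInvertible) (s : T.H0) (hs : s ≠ 0) :
    (Module.finrank K (T.secQuot s).N₁ : ℤ) ≤ (T.secQuot s).chi := by
  have := secQuot_finite₁ hT s hs
  have := secQuot_finite₂ hT s hs
  have hQ := secQuot_isQC hT.toIsQC s
  rw [hQ.chi_of_finite]
  have hsurj := hQ.ρ₂_surjective_of_finite
  have hle : Module.finrank K (T.secQuot s).N₁₂ ≤ Module.finrank K (T.secQuot s).N₂ :=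
    LinearMap.finrank_le_finrank_of_surjective (f := (T.secQuot s).ρ₂A) hsurj
  omega

/-- an effective line bundle has degree `≥ 0` -/
theorem deg_nonneg (hT : T.IsInvertible) (h : 0 < T.h0) : 0 ≤ T.deg := by
  have : ∃ s : T.H0, s ≠ 0 := by
    by_contra hcon
    push Not at hcon
    have hsub : Subsingleton T.H0 := ⟨fun a b => (hcon a).trans (hcon b).symm⟩
    have : T.h0 = 0 := Module.finrank_zero_of_subsingleton
    omega
  obtain ⟨s, hs⟩ := this
  rw [deg_eq_chi_secQuot hT s hs]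
  exact le_trans (Int.natCast_nonneg _) (Section.finrank_le_chi hT s hs)

/-- a nonzero section has at most `deg T` zeros -/
theorem card_zeros_le (hT : T.IsInvertible) (s : T.H0) (hs : s ≠ 0)
    (Z : Finset (𝔠.B₁ →ₐ[k] K))
    (hZ : ∀ σ ∈ Z, s.1.1 ∈ graphIdeal₁ σ • (⊤ : Submodule (𝔠.R₁ K) T.N₁)) :
    (Z.card : ℤ) ≤ T.deg := by
  have := hT.inv₁
  have hfin := secQuot_finite₁ hT s hs
  rw [deg_eq_chi_secQuot hT s hs]
  refine le_trans ?_ (Section.finrank_le_chi hT s hs)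
  have key := @RR.card_le_finrank_quotient K (𝔠.R₁ K) T.N₁ _ _ _ _ _ _
    (Z.map (Points.pointEquiv (k := k) (A := K) (B := 𝔠.B₁)).toEmbedding)
    (LinearMap.range (T.secHom s).f₁) (by
      intro φ hφ
      obtain ⟨σ, hσ, rfl⟩ := Finset.mem_map.1 hφ
      rintro _ ⟨r, rfl⟩
      exact Submodule.smul_mem _ (show 𝔠.R₁ K from r) (hZ σ hσ))
    (T.secQuot s).modA₁ (T.secQuot s).tower₁ hfin
  rw [Finset.card_map] at key
  exact_mod_cast key

end Fermat.Agent.S25.RR
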