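/-
S25 / block X, section X10 (helper129): additivity of the degree.
Results of other sections are cited from the skeleton as `RR.foo`.
-/
import Fermat.Agent.S25.RR.Base
import Fermat.Agent.S25.RR.IdivField
import Fermat.Agent.S25.RR.Otw
import Fermat.Agent.S25.RR.P0
import Fermat.Agent.S25.RR.Section
import Fermat.Agent.S25.RR.TensorTorsion

set_option autoImplicit false
set_option linter.unusedSectionVars false

universe u

open scoped TensorProduct
open Function

namespace Fermat.Agent.S25.RR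

open Triple

variable {k : Type u} [Field k] {𝔠 : CurveCharts k}

section X10

variable [IsAlgClosed k] {K : Type u} [Field K] [Algebra k K]

theorem deg_of_iso {T T' : Triple 𝔠 K} (e : Iso T T') : T.deg = T'.deg := by
  unfold Triple.deg
  rw [e.chi_eq]

theorem deg_unit : (unit 𝔠 K).deg = 0 := by
  unfold Triple.deg
  exact sub_self _

omit [IsAlgClosed k] in
/-- a line bundle with positive Euler characteristic has a nonzero section -/
theorem exists_section_ne_zero {M : Triple 𝔠 K} (h : 0 < M.chi) : ∃ s : M.H0, s ≠ 0 := by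
  have h0 : 0 < M.h0 := by
    unfold Triple.chi at h
    omega
  have : Nontrivial M.H0 := Module.nontrivial_of_finrank_pos (R := K) h0
  exact exists_ne 0

omit [IsAlgClosed k] in
/-- some twist of `T'` has positive Euler characteristic -/
theorem exists_chi_tensor_Otw_pos {T' : Triple 𝔠 K} (hT' : T'.IsInvertible) :
    ∃ m : ℕ, 0 < (T'.tensor (Otw 𝔠 K m)).chi := by
  have hd : 0 < 𝔠.degInf := RR.degInf_pos 𝔠
  refine ⟨(1 - T'.chi).toNat, ?_⟩
  rw [RR.chi_tensor_Otw hT']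
  have h1 : 1 - T'.chi ≤ ((1 - T'.chi).toNat : ℤ) := Int.self_le_toNat _
  have h2 : ((1 - T'.chi).toNat : ℤ) ≤ ((1 - T'.chi).toNat : ℤ) * (𝔠.degInf : ℤ) := by
    have h3 : (1 : ℤ) ≤ (𝔠.degInf : ℤ) := by exact_mod_cast hd
    have h4 : (0 : ℤ) ≤ ((1 - T'.chi).toNat : ℤ) := Int.natCast_nonneg _
    nlinarith
  linarith

/-- The degree is additive. -/
theorem deg_tensor {T T' : Triple 𝔠 K} (hT : T.IsInvertible) (hT' : T'.IsInvertible) :
    (T.tensor T').deg = T.deg + T'.deg := by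
  obtain ⟨m, hm⟩ := exists_chi_tensor_Otw_pos hT'
  have hM : (T'.tensor (Otw 𝔠 K m)).IsInvertible := hT'.tensor (RR.isInvertible_Otw 𝔠 K m)
  obtain ⟨s, hs⟩ := exists_section_ne_zero hm
  have E := RR.secHom_shortExact hM s hs
  have hQ := RR.secQuot_isQC hM.toIsQC s
  have f₁ := RR.secQuot_finite₁ hM s hs
  have f₂ := RR.secQuot_finite₂ hM s hs
  have h1 := RR.chi_tensor_of_shortExact hT unit_isInvertible hM hQ E
  have h2 := RR.deg_eq_chi_secQuot hM s hs
  have h3 : (T.tensor (unit 𝔠 K)).chi = T.chi := (tensorUnit T).chi_eq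
  have h4 : ((T.tensor T').tensor (Otw 𝔠 K m)).chi = (T.tensor (T'.tensor (Otw 𝔠 K m))).chi :=
    (tensorAssoc T T' (Otw 𝔠 K m)).chi_eq
  have h5 := RR.chi_tensor_Otw (hT.tensor hT') m
  have h6 := RR.chi_tensor_Otw hT' m
  unfold Triple.deg at h2 ⊢
  linarith

theorem deg_Otw (j : ℕ) : (Otw 𝔠 K j).deg = j * 𝔠.degInf := by
  have h1 := RR.chi_tensor_Otw (unit_isInvertible (𝔠 := 𝔠) (A := K)) j
  have h2 : ((unit 𝔠 K).tensor (Otw 𝔠 K j)).chi = (Otw 𝔠 K j).chi :=
    (unitTensor (Otw 𝔠 K j)).chi_eq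
  unfold Triple.deg
  linarith

theorem deg_Ipt (σ : 𝔠.B₁ →ₐ[k] K) : (Ipt σ).deg = -1 := by
  have h1 := RR.chi_tensor_Ipt (unit_isInvertible (𝔠 := 𝔠) (A := K)) σ
  have h2 : ((unit 𝔠 K).tensor (Ipt σ)).chi = (Ipt σ).chi := (unitTensor (Ipt σ)).chi_eq
  unfold Triple.deg
  linarith

theorem deg_IP0 : (IP0 𝔠 K).deg = -1 := by
  have h1 := RR.chi_tensor_IP0 (unit_isInvertible (𝔠 := 𝔠) (A := K))
  have h2 : ((unit 𝔠 K).tensor (IP0 𝔠 K)).chi = (IP0 𝔠 K).chi := (unitTensor (IP0 𝔠 K)).chi_eq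
  unfold Triple.deg
  linarith

theorem isInvertible_ptw {T : Triple 𝔠 K} (hT : T.IsInvertible) (l : List (𝔠.B₁ →ₐ[k] K)) :
    (T.ptw l).IsInvertible := by
  induction l with
  | nil => exact hT
  | cons σ l ih => exact ih.tensor (RR.isInvertible_Ipt σ)

theorem deg_ptw {T : Triple 𝔠 K} (hT : T.IsInvertible) (l : List (𝔠.B₁ →ₐ[k] K)) :
    (T.ptw l).deg = T.deg - l.length := by
  induction l with
  | nil => simp
  | cons σ l ih =>
    rw [ptw_cons, deg_tensor (isInvertible_ptw hT l) (RR.isInvertible_Ipt σ), ih, deg_Ipt,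
      List.length_cons]
    push_cast
    ring

/-- If `T ⊗ T' ≅ 𝒪` then `deg T' = - deg T`. -/
theorem deg_eq_neg_of_iso {T T' : Triple 𝔠 K} (hT : T.IsInvertible) (hT' : T'.IsInvertible)
    (e : Iso (T.tensor T') (unit 𝔠 K)) : T'.deg = - T.deg := by
  have h1 := deg_tensor hT hT'
  rw [deg_of_iso e, deg_unit] at h1
  linarith

end X10

end Fermat.Agent.S25.RR
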