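/-
S25 / block X, section X12: a sub-line-bundle of `𝒪` which is everything along `P₀` is the ideal sheaf
of a closed subscheme of `W₁ × Spec A` (any base ring `A`).
Statement by helper177 (WIP/RRSkeleton.lean), proof by helper145.
-/
import Fermat.Agent.S25.RR.P0

set_option autoImplicit false

universe u

open scoped TensorProduct
open Function

namespace Fermat.Agent.S25.RR

open Triple

variable {k : Type u} [Field k] {𝔠 : CurveCharts k} {A : Type u} [CommRing A] [Algebra k A]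

/-- A sub-line-bundle of `𝒪` which is everything along `P₀` is the ideal sheaf of a closed subscheme
of `W₁ × Spec A`. -/
theorem nonempty_iso_Idiv_of_hom {T : Triple 𝔠 A} (hT : T.IsQC) (f : Hom T (unit 𝔠 A))
    (h₁ : Injective f.f₁) (h₂ : Injective f.f₂) (h₁₂ : Injective f.f₁₂)
    (I : Ideal (𝔠.R₁ A)) (hI : ∀ r : 𝔠.R₁ A, r ∈ I ↔ ∃ n, f.f₁ n = r)
    (hP0 : ∃ (n : T.N₂) (r : 𝔠.R₂ A), r ∈ RingHom.ker (𝔠.ev₀ A).toRingHom ∧
      (show 𝔠.R₂ A from f.f₂ n) + r = 1) :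
    Nonempty (Iso T (Idiv I)) := by
  let F₁ : T.N₁ →ₗ[𝔠.R₁ A] 𝔠.R₁ A := f.f₁
  let F₂ : T.N₂ →ₗ[𝔠.R₂ A] 𝔠.R₂ A := f.f₂
  let F₁₂ : T.N₁₂ →ₗ[𝔠.R₁₂ A] 𝔠.R₁₂ A := f.f₁₂
  have c₁ : ∀ n, F₁₂ (T.ρ₁ n) = 𝔠.res₁ A (F₁ n) := f.comm₁
  have c₂ : ∀ n, F₁₂ (T.ρ₂ n) = 𝔠.res₂ A (F₂ n) := f.comm₂
  have hxy : 𝔠.res₁ A (𝔠.xA A) * 𝔠.res₂ A (𝔠.yA A) = 1 := TensorAux.res₁_xA_mul_res₂_yA 𝔠 A
  -- the three ranges
  have r₁ : LinearMap.range F₁ = I := by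
    ext r
    rw [LinearMap.mem_range]
    exact (hI r).symm
  have r₁₂ : LinearMap.range F₁₂ = I₁₂ I := by
    apply le_antisymm
    · rintro _ ⟨t, rfl⟩
      obtain ⟨m, t₁, ht⟩ := hT.surj₁ t
      have e1 : 𝔠.res₁ A (F₁ t₁) = (𝔠.res₁ A (𝔠.xA A)) ^ m * F₁₂ t := by
        rw [← c₁, ht, map_smul, smul_eq_mul]
      have e2 : F₁₂ t = (𝔠.res₂ A (𝔠.yA A)) ^ m * 𝔠.res₁ A (F₁ t₁) := by
        rw [e1, ← mul_assoc, ← mul_pow, mul_comm (𝔠.res₂ A _), hxy, one_pow, one_mul]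
      rw [e2]
      exact Ideal.mul_mem_left _ _
        (Ideal.mem_map_of_mem (𝔠.res₁ A).toRingHom ((hI _).2 ⟨t₁, rfl⟩))
    · change Ideal.map (𝔠.res₁ A).toRingHom I ≤ (LinearMap.range F₁₂ : Ideal (𝔠.R₁₂ A))
      rw [Ideal.map_le_iff_le_comap]
      intro a ha
      obtain ⟨n, rfl⟩ := (hI a).1 ha
      exact ⟨T.ρ₁ n, c₁ n⟩
  have r₂ : LinearMap.range F₂ = I₂ I := by
    apply le_antisymm
    · rintro _ ⟨n, rfl⟩
      change 𝔠.res₂ A (F₂ n) ∈ I₁₂ I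
      rw [← c₂, ← r₁₂]
      exact ⟨_, rfl⟩
    · intro b hb
      have hb' : 𝔠.res₂ A b ∈ LinearMap.range F₁₂ := by
        rw [r₁₂]
        exact hb
      obtain ⟨t, ht⟩ := hb'
      obtain ⟨m, t₂, ht₂⟩ := hT.surj₂ t
      have e1 : F₂ t₂ = (𝔠.yA A) ^ m * b := by
        apply TensorAux.res₂_injective 𝔠 A
        rw [← c₂, ht₂, map_smul, smul_eq_mul, ht, map_mul, map_pow]
      obtain ⟨n₀, r, hr, h1⟩ := hP0
      obtain ⟨N, hN⟩ := RR.exists_pow_ker_ev₀_le 𝔠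
      have hrN : r ^ N ∈ Ideal.span {𝔠.yA A} := hN A (Ideal.pow_mem_pow hr N)
      obtain ⟨c, hc⟩ := Ideal.mem_span_singleton'.1 hrN
      have hj : F₂ n₀ = 1 - r := eq_sub_of_add_eq h1
      obtain ⟨q, hq⟩ : (1 - r) ∣ 1 - (r ^ N) ^ m := by
        rw [← pow_mul]
        simpa using sub_dvd_pow_sub_pow (1 : 𝔠.R₂ A) r (N * m)
      have e2 : b = F₂ ((q * b) • n₀ + c ^ m • t₂) := by
        rw [map_add, map_smul, map_smul, hj, e1, smul_eq_mul, smul_eq_mul]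
        have : (q * b) * (1 - r) = (1 - (r ^ N) ^ m) * b := by rw [hq]; ring
        rw [this, ← hc]
        ring
      exact ⟨_, e2.symm⟩
  refine ⟨{
    e₁ := (LinearEquiv.ofInjective F₁ h₁).trans (LinearEquiv.ofEq _ _ r₁)
    e₂ := (LinearEquiv.ofInjective F₂ h₂).trans (LinearEquiv.ofEq _ _ r₂)
    e₁₂ := (LinearEquiv.ofInjective F₁₂ h₁₂).trans (LinearEquiv.ofEq _ _ r₁₂)
    comm₁ := fun n => Subtype.ext (c₁ n)
    comm₂ := fun n => Subtype.ext (c₂ n) }⟩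

end Fermat.Agent.S25.RR
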