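/-
S25 / block X: from a section of `ℋom(T, 𝒪(j D_∞))` generating at `P₀` to `T ≅ 𝒪(-D) ⊗ 𝒪(j D_∞)`.
Helper file for `RR/Effective.lean` (X13), `Charts/Degree.lean` (X4), `Charts/PointsOfPic.lean` (X6).
Owner: helper145.
-/
import Fermat.Agent.S25.RR.DivOfHom
import Fermat.Agent.S25.RR.ArtinB
import Fermat.Agent.S25.RR.Section
import Fermat.Agent.S25.RR.Otw
import Fermat.Agent.S25.Triple.IHomLemmas

set_option autoImplicit false

universe u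

open scoped TensorProduct
open Function

namespace Fermat.Agent.S25.RR

/-! ### module lemmas -/

section Mod

variable {R N N' : Type u} [CommRing R] [AddCommGroup N] [Module R N] [AddCommGroup N'] [Module R N']

/-- an invertible module has rank one -/
theorem apply_smul_comm [Module.Invertible R N] (φ : N →ₗ[R] R) (g : N →ₗ[R] N') (n n' : N) :
    φ n • g n' = φ n' • g n := by
  have h := congrArg ((TensorProduct.lid R N').toLinearMap ∘ₗ TensorProduct.map φ g)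
    (Module.Invertible.tmul_comm (R := R) (m₁ := n) (m₂ := n'))
  simpa using h

/-- a nonzero map between invertible modules over a domain is injective -/
theorem injective_of_ne_zero [IsDomain R] [Module.Invertible R N] [Module.Invertible R N']
    (g : N →ₗ[R] N') (hg : g ≠ 0) : Injective g := by
  rw [injective_iff_map_eq_zero]
  intro n hn
  obtain ⟨n', hn'⟩ : ∃ n', g n' ≠ 0 := by
    by_contra hcon
    push Not at hcon
    exact hg (LinearMap.ext hcon)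
  obtain ⟨d, e, l, hl⟩ := SemiExt.exists_dualBasis R N
  rw [← hl n]
  refine Finset.sum_eq_zero fun i _ => ?_
  have h1 : l i n • g n' = 0 := by rw [apply_smul_comm (l i) g n n', hn, smul_zero]
  rcases RR.eq_zero_or_eq_zero_of_smul_eq_zero _ _ h1 with h | h
  · rw [h, zero_smul]
  · exact absurd h hn'

/-- a linear form with values in `𝔪` lies in `𝔪 • Hom(N, R)` -/
theorem mem_smul_top_of_forall_mem [Module.Finite R N] [Module.Projective R N] (𝔪 : Ideal R)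
    (g : N →ₗ[R] R) (hg : ∀ n, g n ∈ 𝔪) : g ∈ 𝔪 • (⊤ : Submodule R (N →ₗ[R] R)) := by
  obtain ⟨d, e, l, hl⟩ := SemiExt.exists_dualBasis R N
  have h : g = ∑ i, g (e i) • l i := by
    ext n
    conv_lhs => rw [← hl n]
    simp [mul_comm]
  rw [h]
  exact Submodule.sum_mem _ fun i _ => Submodule.smul_mem_smul (hg _) trivial

/-- `rid` and a pair of inverse twists -/
theorem rid_map_comm_twist {R S M L : Type*} [CommRing R] [CommRing S] {σ : R →+* S}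
    [AddCommGroup M] [Module R M] [AddCommGroup L] [Module S L] (ρ : M →ₛₗ[σ] L) (c d : S)
    (hcd : d * c = 1) (ι : R →ₛₗ[σ] S) (hι : ∀ r, ι r = d * σ r) (n : M ⊗[R] R) :
    TensorProduct.rid S L (TensorProduct.map (c • ρ) ι n) = ρ (TensorProduct.rid R M n) := by
  induction n using TensorProduct.induction_on with
  | zero => simp only [map_zero]
  | tmul a b =>
    rw [TensorProduct.map_tmul, TensorProduct.rid_tmul, TensorProduct.rid_tmul, hι,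
      LinearMap.smul_apply, smul_smul, mul_right_comm, hcd, one_mul, map_smulₛₗ]
  | add a b ha hb => simp only [map_add, ha, hb]

end Mod

open Triple

variable {k : Type u} [Field k] {𝔠 : CurveCharts k}

/-! ### untwisting -/

section Untwist

variable {A : Type u} [CommRing A] [Algebra k A]

/-- `T(-j D_∞)`: the same modules, `ρ₂` multiplied by `y^j`. -/
noncomputable def untw (T : Triple 𝔠 A) (j : ℕ) : Triple 𝔠 A where
  N₁ := T.N₁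
  N₂ := T.N₂
  N₁₂ := T.N₁₂
  ρ₁ := T.ρ₁
  ρ₂ := (𝔠.res₂ A (𝔠.yA A)) ^ j • T.ρ₂

lemma untw_ρ₂ (T : Triple 𝔠 A) (j : ℕ) (n : T.N₂) :
    (untw T j).ρ₂ n = (𝔠.res₂ A (𝔠.yA A)) ^ j • T.ρ₂ n := rfl

lemma x_pow_mul_y_pow (j : ℕ) :
    (𝔠.res₁ A (𝔠.xA A)) ^ j * (𝔠.res₂ A (𝔠.yA A)) ^ j = 1 := by
  rw [← mul_pow, TensorAux.res₁_xA_mul_res₂_yA, one_pow]

theorem untw_isQC {T : Triple 𝔠 A} (hT : T.IsQC) (j : ℕ) : (untw T j).IsQC where
  surj₁ := hT.surj₁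
  inj₁ := hT.inj₁
  surj₂ := fun (n : T.N₁₂) => by
    obtain ⟨m, n₂, h⟩ := hT.surj₂ n
    refine ⟨j + m, n₂, ?_⟩
    change (𝔠.res₂ A (𝔠.yA A)) ^ j • T.ρ₂ n₂ = (𝔠.res₂ A (𝔠.yA A)) ^ (j + m) • n
    rw [h, smul_smul, ← pow_add]
  inj₂ := fun (n₂ : T.N₂) h => by
    apply hT.inj₂
    have h0 : (𝔠.res₂ A (𝔠.yA A)) ^ j • T.ρ₂ n₂ = 0 := h
    have h' := congrArg (fun v => (𝔠.res₁ A (𝔠.xA A)) ^ j • v) h0
    simpa only [smul_smul, x_pow_mul_y_pow, one_smul, smul_zero] using h'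

/-- a morphism `T → 𝒪(j D_∞)` is a morphism `T(-j D_∞) → 𝒪` -/
noncomputable def untwHom {T : Triple 𝔠 A} {j : ℕ} (f : Hom T (Otw 𝔠 A j)) :
    Hom (untw T j) (unit 𝔠 A) where
  f₁ := f.f₁
  f₂ := f.f₂
  f₁₂ := f.f₁₂
  comm₁ := f.comm₁
  comm₂ := fun n => by
    have h : f.f₁₂ (T.ρ₂ n) =
      (𝔠.res₁ A (𝔠.xA A)) ^ j * 𝔠.res₂ A (show 𝔠.R₂ A from f.f₂ n) := f.comm₂ n
    change f.f₁₂ ((𝔠.res₂ A (𝔠.yA A)) ^ j • T.ρ₂ n) = 𝔠.res₂ A (show 𝔠.R₂ A from f.f₂ n)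
    rw [map_smul, h]
    change (𝔠.res₂ A (𝔠.yA A)) ^ j * ((𝔠.res₁ A (𝔠.xA A)) ^ j * _) = _
    rw [← mul_assoc, mul_comm ((𝔠.res₂ A (𝔠.yA A)) ^ j), x_pow_mul_y_pow, one_mul]

/-- `T(-j D_∞) ⊗ 𝒪(j D_∞) ≅ T` -/
noncomputable def untwTensorIso (T : Triple 𝔠 A) (j : ℕ) :
    Iso ((untw T j).tensor (Otw 𝔠 A j)) T where
  e₁ := TensorProduct.rid (𝔠.R₁ A) T.N₁
  e₂ := TensorProduct.rid (𝔠.R₂ A) T.N₂
  e₁₂ := TensorProduct.rid (𝔠.R₁₂ A) T.N₁₂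
  comm₁ := TensorAux.rid_map_comm T.ρ₁ (Otw 𝔠 A j).ρ₁ (fun _ => rfl)
  comm₂ := rid_map_comm_twist T.ρ₂ _ _ (x_pow_mul_y_pow j) (Otw 𝔠 A j).ρ₂ (fun _ => rfl)

/-- A sub-line-bundle of `𝒪(j D_∞)` which is everything along `P₀` is `𝒪(-D) ⊗ 𝒪(j D_∞)`,
`D ⊆ W₁ × Spec A`. -/
theorem nonempty_iso_Idiv_tensor_Otw_of_hom {T : Triple 𝔠 A} (hT : T.IsQC) {j : ℕ}
    (f : Hom T (Otw 𝔠 A j))
    (h₁ : Injective f.f₁) (h₂ : Injective f.f₂) (h₁₂ : Injective f.f₁₂)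
    (I : Ideal (𝔠.R₁ A)) (hI : ∀ r : 𝔠.R₁ A, r ∈ I ↔ ∃ n, f.f₁ n = r)
    (hP0 : ∃ (n : T.N₂) (r : 𝔠.R₂ A), r ∈ RingHom.ker (𝔠.ev₀ A).toRingHom ∧
      (show 𝔠.R₂ A from f.f₂ n) + r = 1) :
    Nonempty (Iso T ((Idiv I).tensor (Otw 𝔠 A j))) := by
  obtain ⟨e⟩ := nonempty_iso_Idiv_of_hom (untw_isQC hT j) (untwHom f) h₁ h₂ h₁₂ I hI hP0
  exact ⟨(untwTensorIso T j).symm.trans (e.tensor (Iso.refl _))⟩

end Untwist

/-! ### sections of `ℋom` -/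

section IHom

variable {A : Type u} [CommRing A] [Algebra k A]

/-- a global section of `ℋom(T, E)` is a morphism `T → E` -/
noncomputable def homOfSection {T : Triple 𝔠 A} (hT : T.IsQC) (E : Triple 𝔠 A)
    (s : (ihom T E).H0) : Hom T E where
  f₁ := s.1.1
  f₂ := s.1.2
  f₁₂ := (ihom T E).ρ₁ s.1.1
  comm₁ := fun n => ihom_ρ₁_apply hT E s.1.1 n
  comm₂ := fun n => by
    rw [H0.ρ_eq s]
    exact ihom_ρ₂_apply hT E s.1.2 n

/-- `ℋom(T, E) ≅ T^∨ ⊗ E` -/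
noncomputable def ihomIso {T : Triple 𝔠 A} (hT : T.IsInvertible) (E : Triple 𝔠 A) :
    Iso (ihom T E) ((dual T).tensor E) :=
  (unitTensor (ihom T E)).symm.trans <|
    (((tensorDualIso hT).symm.trans (tensorComm T (dual T))).tensor (Iso.refl (ihom T E))).trans <|
      (tensorAssoc (dual T) T (ihom T E)).trans ((Iso.refl (dual T)).tensor (evIso hT E))

/-- if `f₂` is injective so is `f₁₂` -/
theorem injective₁₂_of_injective₂ {T : Triple 𝔠 A} (hT : T.IsQC) {j : ℕ} (f : Hom T (Otw 𝔠 A j))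
    (h₂ : Injective f.f₂) : Injective f.f₁₂ := by
  let F₂ : T.N₂ →ₗ[𝔠.R₂ A] 𝔠.R₂ A := f.f₂
  let F₁₂ : T.N₁₂ →ₗ[𝔠.R₁₂ A] 𝔠.R₁₂ A := f.f₁₂
  have c₂ : ∀ n, F₁₂ (T.ρ₂ n) = (𝔠.res₁ A (𝔠.xA A)) ^ j * 𝔠.res₂ A (F₂ n) := f.comm₂
  change Injective F₁₂
  rw [injective_iff_map_eq_zero]
  intro t ht
  obtain ⟨m, t₂, h⟩ := hT.surj₂ t
  have h1 := c₂ t₂
  rw [h, map_smul, ht, smul_zero] at h1
  have h2 : 𝔠.res₂ A (F₂ t₂) = 0 := by
    calc 𝔠.res₂ A (F₂ t₂)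
        = (𝔠.res₂ A (𝔠.yA A)) ^ j * ((𝔠.res₁ A (𝔠.xA A)) ^ j * 𝔠.res₂ A (F₂ t₂)) := by
          rw [← mul_assoc, mul_comm ((𝔠.res₂ A (𝔠.yA A)) ^ j), x_pow_mul_y_pow, one_mul]
      _ = 0 := by rw [← h1, mul_zero]
  have h3 : F₂ t₂ = 0 := TensorAux.res₂_injective 𝔠 A (by rw [h2, map_zero])
  have h4 : t₂ = 0 := h₂ (by rw [map_zero]; exact h3)
  rw [h4, map_zero] at h
  have := congrArg (fun v => (𝔠.res₁ A (𝔠.xA A)) ^ m • v) h
  simpa only [smul_zero, smul_smul, x_pow_mul_y_pow, one_smul] using this.symm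

end IHom

/-! ### the core statement over a field -/

section Field

variable [IsAlgClosed k] {K : Type u} [Field K] [Algebra k K]

/-- If `H¹(ℋom(T, 𝒪(j D_∞))(-P₀)) = 0` then `T ≅ 𝒪(-D) ⊗ 𝒪(j D_∞)` for an effective divisor
`D ⊆ W₁`. -/
theorem exists_iso_Idiv_tensor_Otw_of_h1 {T : Triple 𝔠 K} (hT : T.IsInvertible) (j : ℕ)
    (h : ((ihom T (Otw 𝔠 K j)).tensor (IP0 𝔠 K)).h1 = 0) :
    ∃ I : Ideal (𝔠.R₁ K), I ≠ ⊥ ∧ Nonempty (Iso T ((Idiv I).tensor (Otw 𝔠 K j))) := by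
  have hO := RR.isInvertible_Otw 𝔠 K j
  have hH := ihom_isInvertible hT hO
  obtain ⟨s, hs⟩ := RR.exists_section_not_mem hH h
  let g := homOfSection hT.toIsQC _ s
  let G₁ : T.N₁ →ₗ[𝔠.R₁ K] 𝔠.R₁ K := g.f₁
  let G₂ : T.N₂ →ₗ[𝔠.R₂ K] 𝔠.R₂ K := g.f₂
  have i₁ := hT.inv₁
  have i₂ := hT.inv₂
  have d₁ := 𝔠.isDomain_R₁ K
  have d₂ := 𝔠.isDomain_R₂ K
  -- the section does not vanish at `P₀`
  obtain ⟨n₀, hn₀⟩ : ∃ n₀, G₂ n₀ ∉ RingHom.ker (𝔠.ev₀ K).toRingHom := by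
    by_contra hcon
    push Not at hcon
    exact hs (mem_smul_top_of_forall_mem _ G₂ hcon)
  have hc : 𝔠.ev₀ K (G₂ n₀) ≠ 0 := hn₀
  have hP0 : ∃ (n : T.N₂) (r : 𝔠.R₂ K), r ∈ RingHom.ker (𝔠.ev₀ K).toRingHom ∧
      (show 𝔠.R₂ K from g.f₂ n) + r = 1 := by
    refine ⟨algebraMap K (𝔠.R₂ K) (𝔠.ev₀ K (G₂ n₀))⁻¹ • n₀,
      1 - G₂ (algebraMap K (𝔠.R₂ K) (𝔠.ev₀ K (G₂ n₀))⁻¹ • n₀), ?_, add_sub_cancel _ _⟩
    change 𝔠.ev₀ K _ = 0
    rw [map_sub, map_one, map_smul, smul_eq_mul, map_mul, AlgHom.commutes,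
      Algebra.algebraMap_self_apply, inv_mul_cancel₀ hc, sub_self]
  -- injectivity
  have hG₂ : G₂ ≠ 0 := by
    intro h0
    apply hn₀
    rw [h0]
    exact Ideal.zero_mem _
  have h₂ : Injective g.f₂ := injective_of_ne_zero G₂ hG₂
  have h₁₂ : Injective g.f₁₂ := injective₁₂_of_injective₂ hT.toIsQC g h₂
  have h₁ : Injective g.f₁ := by
    intro a b hab
    apply RR.ρ₁_injective hT
    apply h₁₂
    rw [g.comm₁, g.comm₁, hab]
  refine ⟨LinearMap.range G₁, ?_, nonempty_iso_Idiv_tensor_Otw_of_hom hT.toIsQC g h₁ h₂ h₁₂ _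
    (fun r => LinearMap.mem_range) hP0⟩
  intro hbot
  have hz : ∀ n : T.N₁, n = 0 := fun n => by
    apply h₁
    have : G₁ n ∈ LinearMap.range G₁ := ⟨n, rfl⟩
    rw [hbot] at this
    rw [map_zero]
    exact this
  have : (1 : 𝔠.R₁ K) = 0 := FaithfulSMul.eq_of_smul_eq_smul (α := T.N₁) fun n => by
    rw [hz n, smul_zero, smul_zero]
  exact one_ne_zero this

end Field

end Fermat.Agent.S25.RR
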