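/-
S25 / block X, section X9: `H¹(𝒪(m D_∞)) = 0` for `m ≫ 0` over every base; uniform vanishing.
-/
import Fermat.Agent.S25.RR.Base
import Fermat.Agent.S25.RR.FinCoh
import Fermat.Agent.S25.RR.P0
import Fermat.Agent.S25.RR.TensorTorsion
import Fermat.Agent.S25.RR.Section
import Fermat.Agent.S25.RR.Otw
import Fermat.Agent.S25.Triple.Torsion

set_option autoImplicit false

universe u

open scoped TensorProduct
open Function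

namespace Fermat.Agent.S25.RR

open Triple

variable {k : Type u} [Field k] {𝔠 : CurveCharts k}

section X9

variable (𝔠)

/-- `B₁₂ = B₁ + x^m B₂`. -/
def VanishB (m : ℕ) : Prop :=
  ∀ b : 𝔠.B₁₂, ∃ (b₁ : 𝔠.B₁) (b₂ : 𝔠.B₂),
    b = algebraMap 𝔠.B₁ 𝔠.B₁₂ b₁ - (algebraMap 𝔠.B₁ 𝔠.B₁₂ 𝔠.x) ^ m * algebraMap 𝔠.B₂ 𝔠.B₁₂ b₂

theorem vanish_Otw_δ_apply (A : Type u) [CommRing A] [Algebra k A] (m : ℕ) (n₁ : 𝔠.R₁ A)
    (n₂ : 𝔠.R₂ A) :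
    (Otw 𝔠 A m).δ (n₁, n₂) = (𝔠.res₁ A n₁ - (𝔠.res₁ A (𝔠.xA A)) ^ m * 𝔠.res₂ A n₂ : 𝔠.R₁₂ A) := by
  rw [δ_apply]
  rfl

theorem vanish_surjective_of_vanishB {m : ℕ} (h : VanishB 𝔠 m) (A : Type u) [CommRing A]
    [Algebra k A] : Surjective (Otw 𝔠 A m).δ := by
  rw [← LinearMap.range_eq_top, eq_top_iff]
  intro (z : 𝔠.R₁₂ A) _
  induction z using TensorProduct.induction_on with
  | zero => exact zero_mem _
  | add z w hz hw => exact add_mem (hz trivial) (hw trivial)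
  | tmul a b =>
    obtain ⟨b₁, b₂, rfl⟩ := h b
    refine ⟨((a ⊗ₜ b₁ : 𝔠.R₁ A), (a ⊗ₜ b₂ : 𝔠.R₂ A)), ?_⟩
    rw [vanish_Otw_δ_apply, TensorAux.res₁_xA_pow, TensorAux.res₁_tmul, TensorAux.res₂_tmul,
      Algebra.TensorProduct.tmul_mul_tmul, one_mul, ← TensorProduct.tmul_sub]

/-- the subspace `res₁ R₁ + x^m res₂ R₂` of `R₁₂ k` -/
noncomputable def vanishW (m : ℕ) : Submodule k (unit 𝔠 k).N₁₂ where
  carrier := {z | ∃ (n₁ : 𝔠.R₁ k) (n₂ : 𝔠.R₂ k),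
    z = (𝔠.res₁ k n₁ - (𝔠.res₁ k (𝔠.xA k)) ^ m * 𝔠.res₂ k n₂ : 𝔠.R₁₂ k)}
  add_mem' := by
    rintro _ _ ⟨a₁, a₂, rfl⟩ ⟨b₁, b₂, rfl⟩
    refine ⟨a₁ + b₁, a₂ + b₂, ?_⟩
    rw [map_add, map_add]
    change (_ + _ : 𝔠.R₁₂ k) = _
    ring
  zero_mem' := ⟨0, 0, by rw [map_zero, map_zero, mul_zero, sub_zero]; rfl⟩
  smul_mem' := by
    rintro c _ ⟨a₁, a₂, rfl⟩
    refine ⟨algebraMap k (𝔠.R₁ k) c * a₁, algebraMap k (𝔠.R₂ k) c * a₂, ?_⟩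
    rw [map_mul, map_mul, AlgHom.commutes, AlgHom.commutes]
    change (algebraMap k (𝔠.R₁₂ k) c * _ : 𝔠.R₁₂ k) = _
    ring

theorem vanish_range_le (m : ℕ) : LinearMap.range (unit 𝔠 k).δ ≤ vanishW 𝔠 m := by
  rintro _ ⟨⟨(n₁ : 𝔠.R₁ k), (n₂ : 𝔠.R₂ k)⟩, rfl⟩
  refine ⟨n₁, (𝔠.yA k) ^ m * n₂, ?_⟩
  rw [δ_apply, map_mul, map_pow, ← mul_assoc, ← mul_pow, TensorAux.res₁_xA_mul_res₂_yA, one_pow,
    one_mul]
  rfl

theorem vanish_mem_of_le {m m' : ℕ} (hm : m' ≤ m) {z : 𝔠.R₁₂ k} {r : 𝔠.R₂ k}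
    (h : 𝔠.res₂ k r = (𝔠.res₂ k (𝔠.yA k)) ^ m' * z) : z ∈ vanishW 𝔠 m := by
  obtain ⟨j, rfl⟩ := Nat.exists_eq_add_of_le hm
  refine ⟨0, -((𝔠.yA k) ^ j * r), ?_⟩
  have hxy := TensorAux.res₁_xA_mul_res₂_yA 𝔠 k
  rw [map_zero, map_neg, map_mul, map_pow, h]
  have : (𝔠.res₁ k (𝔠.xA k)) ^ (m' + j) * ((𝔠.res₂ k (𝔠.yA k)) ^ j *
      ((𝔠.res₂ k (𝔠.yA k)) ^ m' * z)) =
      (𝔠.res₁ k (𝔠.xA k) * 𝔠.res₂ k (𝔠.yA k)) ^ (m' + j) * z := by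
    rw [mul_pow, pow_add (𝔠.res₂ k (𝔠.yA k))]
    ring
  rw [mul_neg, this, hxy, one_pow, one_mul, sub_neg_eq_add, zero_add]

theorem vanish_exists_W_eq_top : ∃ m₀ : ℕ, ∀ m : ℕ, m₀ ≤ m → vanishW 𝔠 m = ⊤ := by
  have hfin : FiniteDimensional k ((unit 𝔠 k).N₁₂ ⧸ LinearMap.range (unit 𝔠 k).δ) :=
    (RR.finCoh (unit_isInvertible)).coker
  obtain ⟨t, ht⟩ := hfin.fg_top
  have hrep : ∀ q : (unit 𝔠 k).N₁₂ ⧸ LinearMap.range (unit 𝔠 k).δ,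
      ∃ (z : 𝔠.R₁₂ k) (m : ℕ) (r : 𝔠.R₂ k),
        (LinearMap.range (unit 𝔠 k).δ).mkQ z = q ∧
        𝔠.res₂ k r = (𝔠.res₂ k (𝔠.yA k)) ^ m * z := by
    intro q
    obtain ⟨z, rfl⟩ := Submodule.mkQ_surjective _ q
    obtain ⟨m, r, h⟩ := TensorAux.exists_res₂_eq 𝔠 k z
    exact ⟨z, m, r, rfl, h⟩
  choose rep mf rf hrep1 hrep2 using hrep
  refine ⟨t.sup mf, fun m hm => ?_⟩
  have h1 : (⊤ : Submodule k _) ≤ (vanishW 𝔠 m).map (LinearMap.range (unit 𝔠 k).δ).mkQ := by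
    rw [← ht, Submodule.span_le]
    intro q hq
    exact ⟨rep q, vanish_mem_of_le 𝔠 ((Finset.le_sup hq).trans hm) (hrep2 q), hrep1 q⟩
  rw [eq_top_iff]
  intro z _
  obtain ⟨w, hw, hwz⟩ := h1 (Submodule.mem_top (x := (LinearMap.range (unit 𝔠 k).δ).mkQ z))
  have h2 : z - w ∈ LinearMap.range (unit 𝔠 k).δ := by
    rw [← Submodule.ker_mkQ (LinearMap.range (unit 𝔠 k).δ), LinearMap.mem_ker, map_sub, hwz,
      sub_self]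
  have := add_mem (vanish_range_le 𝔠 m h2) hw
  rwa [sub_add_cancel] at this

theorem vanish_lid_res₁ (n : 𝔠.R₁ k) :
    Algebra.TensorProduct.lid k 𝔠.B₁₂ (𝔠.res₁ k n) =
      algebraMap 𝔠.B₁ 𝔠.B₁₂ (Algebra.TensorProduct.lid k 𝔠.B₁ n) := by
  induction n using TensorProduct.induction_on with
  | zero => simp
  | add a b ha hb => rw [map_add, map_add, map_add, map_add, ha, hb]
  | tmul c b =>
    rw [TensorAux.res₁_tmul, Algebra.TensorProduct.lid_tmul, Algebra.TensorProduct.lid_tmul,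
      Algebra.algebraMap_eq_smul_one, Algebra.algebraMap_eq_smul_one, smul_assoc]

theorem vanish_lid_res₂ (n : 𝔠.R₂ k) :
    Algebra.TensorProduct.lid k 𝔠.B₁₂ (𝔠.res₂ k n) =
      algebraMap 𝔠.B₂ 𝔠.B₁₂ (Algebra.TensorProduct.lid k 𝔠.B₂ n) := by
  induction n using TensorProduct.induction_on with
  | zero => simp
  | add a b ha hb => rw [map_add, map_add, map_add, map_add, ha, hb]
  | tmul c b =>
    rw [TensorAux.res₂_tmul, Algebra.TensorProduct.lid_tmul, Algebra.TensorProduct.lid_tmul,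
      Algebra.algebraMap_eq_smul_one, Algebra.algebraMap_eq_smul_one, smul_assoc]

theorem vanishB_of_W_eq_top {m : ℕ} (h : vanishW 𝔠 m = ⊤) : VanishB 𝔠 m := by
  intro b
  have hb : ((1 : k) ⊗ₜ[k] b : 𝔠.R₁₂ k) ∈ vanishW 𝔠 m := by
    rw [h]
    trivial
  obtain ⟨n₁, n₂, hn⟩ := hb
  refine ⟨Algebra.TensorProduct.lid k 𝔠.B₁ n₁, Algebra.TensorProduct.lid k 𝔠.B₂ n₂, ?_⟩
  have := congrArg (Algebra.TensorProduct.lid k 𝔠.B₁₂) hn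
  rw [map_sub, map_mul, map_pow, vanish_lid_res₁, vanish_lid_res₂, vanish_lid_res₁,
    Algebra.TensorProduct.lid_tmul, one_smul] at this
  rw [this, CurveCharts.xA, Algebra.TensorProduct.lid_tmul, one_smul]

/-- `H¹(𝒪(m D_∞)) = 0` for `m ≫ 0`, over every base. -/
theorem exists_Otw_surjective : ∃ m₀ : ℕ, ∀ (A : Type u) [CommRing A] [Algebra k A] (m : ℕ),
    m₀ ≤ m → Surjective (Otw 𝔠 A m).δ := by
  obtain ⟨m₀, h⟩ := vanish_exists_W_eq_top 𝔠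
  exact ⟨m₀, fun A _ _ m hm =>
    vanish_surjective_of_vanishB 𝔠 (vanishB_of_W_eq_top 𝔠 (h m hm)) A⟩

variable {𝔠} [IsAlgClosed k]

theorem h1_tensor_Otw_eq_zero {K : Type u} [Field K] [Algebra k K] {T : Triple 𝔠 K}
    (hT : T.IsInvertible) (h : 0 < T.h0) (m : ℕ) (hm : Surjective (Otw 𝔠 K m).δ) :
    (T.tensor (Otw 𝔠 K m)).h1 = 0 := by
  have hnt : Nontrivial T.H0 := Module.nontrivial_of_finrank_pos (R := K) h
  obtain ⟨s, hs⟩ := exists_ne (0 : T.H0)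
  have := RR.secQuot_finite₁ hT s hs
  have := RR.secQuot_finite₂ hT s hs
  have h1 : ((Otw 𝔠 K m).tensor (unit 𝔠 K)).h1 = 0 := by
    rw [(tensorUnit (Otw 𝔠 K m)).h1_eq]
    exact h1_eq_zero_of_surjective hm
  have h2 := RR.h1_tensor_eq_zero_of_shortExact (RR.isInvertible_Otw 𝔠 K m)
    unit_isInvertible hT (RR.secQuot_isQC hT.toIsQC s) (RR.secHom_shortExact hT s hs) h1
  rw [(tensorComm T (Otw 𝔠 K m)).h1_eq]
  exact h2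

omit [IsAlgClosed k] in
/-- `(T ⊗ 𝒪(i)) ⊗ 𝒪(j) ≅ T ⊗ 𝒪(i + j)` -/
theorem vanish_iso_twist {A : Type u} [CommRing A] [Algebra k A] (T : Triple 𝔠 A) (i j : ℕ) :
    Nonempty (Iso ((T.tensor (Otw 𝔠 A i)).tensor (Otw 𝔠 A j)) (T.tensor (Otw 𝔠 A (i + j)))) := by
  obtain ⟨e⟩ := RR.nonempty_iso_Otw_add 𝔠 A i j
  exact ⟨(tensorAssoc T _ _).trans ((Iso.refl T).tensor e)⟩

omit [IsAlgClosed k] in
/-- `((T ⊗ 𝒪(i)) ⊗ P) ⊗ 𝒪(j) ≅ (T ⊗ 𝒪(i + j)) ⊗ P` -/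
theorem vanish_iso_twist' {A : Type u} [CommRing A] [Algebra k A] (T P : Triple 𝔠 A) (i j : ℕ) :
    Nonempty (Iso (((T.tensor (Otw 𝔠 A i)).tensor P).tensor (Otw 𝔠 A j))
      ((T.tensor (Otw 𝔠 A (i + j))).tensor P)) := by
  obtain ⟨e⟩ := vanish_iso_twist T i j
  exact ⟨((tensorAssoc _ P _).trans ((Iso.refl _).tensor (tensorComm P _))).trans
    ((tensorAssoc _ _ P).symm.trans (e.tensor (Iso.refl P)))⟩

omit [IsAlgClosed k] in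
theorem vanish_h0_pos {K : Type u} [Field K] [Algebra k K] {T : Triple 𝔠 K} (h : 0 < T.chi) :
    0 < T.h0 := by
  unfold chi at h
  omega

variable (𝔠)

/-- Uniform vanishing. -/
theorem exists_uniform_vanishing : ∃ M : ℕ, ∀ (K : Type u) [Field K] [Algebra k K]
    (T : Triple 𝔠 K), T.IsInvertible → 0 ≤ T.deg → ∀ m : ℕ, M ≤ m →
      (T.tensor (Otw 𝔠 K m)).h1 = 0 ∧ ((T.tensor (Otw 𝔠 K m)).tensor (IP0 𝔠 K)).h1 = 0 := by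
  obtain ⟨m₀, hm₀⟩ := exists_Otw_surjective 𝔠
  refine ⟨(𝔠.genus + 1) + m₀, fun K _ _ T hT hdeg m hm => ?_⟩
  obtain ⟨j, rfl⟩ := Nat.exists_eq_add_of_le hm
  rw [add_assoc]
  have hsurj : Surjective (Otw 𝔠 K (m₀ + j)).δ := hm₀ K (m₀ + j) (Nat.le_add_right _ _)
  have hd : 0 < 𝔠.degInf := RR.degInf_pos 𝔠
  have hO := RR.isInvertible_Otw 𝔠 K (𝔠.genus + 1)
  have hT1 : (T.tensor (Otw 𝔠 K (𝔠.genus + 1))).IsInvertible := hT.tensor hO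
  have hchiT : (1 : ℤ) - 𝔠.genus ≤ T.chi := by
    have := RR.chi_unit 𝔠 K
    unfold deg at hdeg
    omega
  have hmul : ((𝔠.genus : ℤ) + 1) ≤ ((𝔠.genus + 1 : ℕ) : ℤ) * 𝔠.degInf := by
    have h1 : (1 : ℤ) ≤ 𝔠.degInf := by exact_mod_cast hd
    have h2 : (0 : ℤ) ≤ ((𝔠.genus + 1 : ℕ) : ℤ) := Int.natCast_nonneg _
    have h3 := mul_le_mul_of_nonneg_left h1 h2
    rw [mul_one] at h3
    push_cast at h3 ⊢
    exact h3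
  have hchi1 : (2 : ℤ) ≤ (T.tensor (Otw 𝔠 K (𝔠.genus + 1))).chi := by
    rw [RR.chi_tensor_Otw hT]
    omega
  constructor
  · obtain ⟨e⟩ := vanish_iso_twist T (𝔠.genus + 1) (m₀ + j)
    rw [← e.h1_eq]
    exact h1_tensor_Otw_eq_zero hT1 (vanish_h0_pos (by omega)) _ hsurj
  · obtain ⟨e⟩ := vanish_iso_twist' T (IP0 𝔠 K) (𝔠.genus + 1) (m₀ + j)
    rw [← e.h1_eq]
    refine h1_tensor_Otw_eq_zero (hT1.tensor RR.isInvertible_IP0) (vanish_h0_pos ?_) _ hsurj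
    rw [RR.chi_tensor_IP0 hT1]
    omega

end X9

end Fermat.Agent.S25.RR
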