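/-
S25 / block X, section X13: over an algebraically closed field every line bundle of degree `0` is
`𝒪(m D_∞ - σ₁ - ... - σₙ)`, `m` uniform.
Statements by helper177 (WIP/RRSkeleton.lean), proofs by helper145.
-/
import Fermat.Agent.S25.RR.SectionDiv
import Fermat.Agent.S25.RR.IdivField
import Fermat.Agent.S25.RR.Vanish
import Fermat.Agent.S25.RR.Degree
import Fermat.Agent.S25.Charts.Marked

set_option autoImplicit false

universe u

open scoped TensorProduct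
open Function

namespace Fermat.Agent.S25.RR

open Triple

variable {k : Type u} [Field k] {𝔠 : CurveCharts k}

/-! ### products of ideals -/

section Ideal

variable {R : Type*} [CommRing R] (I I' : Ideal R)

/-- the multiplication `I ⊗ I' → R` -/
noncomputable def mulMap : I ⊗[R] I' →ₗ[R] R :=
  (TensorProduct.rid R R).toLinearMap ∘ₗ TensorProduct.map I.subtype I'.subtype

@[simp] lemma mulMap_tmul (a : I) (a' : I') : mulMap I I' (a ⊗ₜ a') = (a' : R) * (a : R) := rfl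

lemma mem_mul_iff_mulMap (r : R) : r ∈ I * I' ↔ ∃ n, mulMap I I' n = r := by
  constructor
  · intro hr
    induction hr using Submodule.mul_induction_on' with
    | mem_mul_mem a ha b hb =>
      exact ⟨(⟨a, ha⟩ : I) ⊗ₜ (⟨b, hb⟩ : I'), by rw [mulMap_tmul, mul_comm]⟩
    | add x _ y _ hx hy =>
      obtain ⟨n, rfl⟩ := hx
      obtain ⟨n', rfl⟩ := hy
      exact ⟨n + n', map_add _ _ _⟩
  · rintro ⟨n, rfl⟩
    induction n using TensorProduct.induction_on with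
    | zero => rw [map_zero]; exact Ideal.zero_mem _
    | tmul a a' =>
      rw [mulMap_tmul, mul_comm (a' : R)]
      exact Ideal.mul_mem_mul a.2 a'.2
    | add x y hx hy => rw [map_add]; exact Ideal.add_mem _ hx hy

lemma mulMap_injective [Module.Flat R I'] : Injective (mulMap I I') :=
  (TensorProduct.rid R R).injective.comp
    (TensorProduct.map_injective_of_flat_flat _ _ Subtype.val_injective Subtype.val_injective)

end Ideal

section General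

variable {A : Type u} [CommRing A] [Algebra k A]

/-- if `f₁` is injective so is `f₁₂` -/
theorem injective₁₂_of_injective₁ {T : Triple 𝔠 A} (hT : T.IsQC) (f : Hom T (unit 𝔠 A))
    (h₁ : Injective f.f₁) : Injective f.f₁₂ := by
  let F₁ : T.N₁ →ₗ[𝔠.R₁ A] 𝔠.R₁ A := f.f₁
  let F₁₂ : T.N₁₂ →ₗ[𝔠.R₁₂ A] 𝔠.R₁₂ A := f.f₁₂
  have c₁ : ∀ n, F₁₂ (T.ρ₁ n) = 𝔠.res₁ A (F₁ n) := f.comm₁
  change Injective F₁₂
  rw [injective_iff_map_eq_zero]
  intro t ht
  obtain ⟨m, t₁, h⟩ := hT.surj₁ t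
  have h1 := c₁ t₁
  rw [h, map_smul, ht, smul_zero] at h1
  have h3 : F₁ t₁ = 0 := TensorAux.res₁_injective 𝔠 A (by rw [← h1, map_zero])
  have h4 : t₁ = 0 := h₁ (by rw [map_zero]; exact h3)
  rw [h4, map_zero] at h
  have := congrArg (fun v => (𝔠.res₂ A (𝔠.yA A)) ^ m • v) h
  simpa only [smul_zero, smul_smul, mul_comm ((𝔠.res₂ A (𝔠.yA A)) ^ m), x_pow_mul_y_pow,
    one_smul] using this.symm

/-- the multiplication `𝒪(-D) ⊗ 𝒪(-D') → 𝒪` -/
noncomputable def mulHom (I I' : Ideal (𝔠.R₁ A)) : Hom ((Idiv I).tensor (Idiv I')) (unit 𝔠 A) :=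
  (tensorUnit (unit 𝔠 A)).toHom.comp ((Idiv.incl I).tensor (Idiv.incl I'))

lemma mulHom_f₁ (I I' : Ideal (𝔠.R₁ A)) : (mulHom I I').f₁ = mulMap I I' := rfl

lemma mulHom_f₂ (I I' : Ideal (𝔠.R₁ A)) : (mulHom I I').f₂ = mulMap (I₂ I) (I₂ I') := rfl

end General

section X13

variable [IsAlgClosed k]

theorem nonempty_iso_Idiv_mul {K : Type u} [Field K] [Algebra k K] (I I' : Ideal (𝔠.R₁ K))
    (hI : I ≠ ⊥) (hI' : I' ≠ ⊥) :
    Nonempty (Iso ((Idiv I).tensor (Idiv I')) (Idiv (I * I'))) := by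
  have d₁ := 𝔠.isDedekindDomain_R₁ K
  have d₂ := 𝔠.isDedekindDomain_R₂ K
  have hQC : ((Idiv I).tensor (Idiv I')).IsQC := (RR.isQC_Idiv I).tensor (RR.isQC_Idiv I')
  have h₁ : Injective (mulHom I I').f₁ := mulMap_injective I I'
  have h₂ : Injective (mulHom I I').f₂ := mulMap_injective (I₂ I) (I₂ I')
  have h₁₂ := injective₁₂_of_injective₁ hQC (mulHom I I') h₁
  have fin : Module.Finite K (𝔠.R₁ K ⧸ I) :=
    RR.finite_quotient_of_ne_bot (𝔠.xA K) (𝔠.finite_xA K) I hI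
  have fin' : Module.Finite K (𝔠.R₁ K ⧸ I') :=
    RR.finite_quotient_of_ne_bot (𝔠.xA K) (𝔠.finite_xA K) I' hI'
  obtain ⟨u, hu, hu1⟩ := 𝔠.exists_ev₀_eq_one I fin
  obtain ⟨u', hu', hu1'⟩ := 𝔠.exists_ev₀_eq_one I' fin'
  refine nonempty_iso_Idiv_of_hom hQC (mulHom I I') h₁ h₂ h₁₂ (I * I') (mem_mul_iff_mulMap I I')
    ⟨(⟨u, hu⟩ : I₂ I) ⊗ₜ (⟨u', hu'⟩ : I₂ I'), 1 - u' * u, ?_, add_sub_cancel _ _⟩
  change 𝔠.ev₀ K _ = 0
  rw [map_sub, map_one, map_mul, hu1, hu1', mul_one, sub_self]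

omit [IsAlgClosed k] in
/-- `𝒪(-∅) ≅ 𝒪` -/
theorem nonempty_iso_Idiv_top {A : Type u} [CommRing A] [Algebra k A] :
    Nonempty (Iso (unit 𝔠 A) (Idiv (⊤ : Ideal (𝔠.R₁ A)))) :=
  nonempty_iso_Idiv_of_hom unit_isQC (Hom.id _) injective_id injective_id injective_id ⊤
    (fun r => ⟨fun _ => ⟨r, rfl⟩, fun _ => trivial⟩) ⟨(1 : 𝔠.R₂ A), 0, Ideal.zero_mem _, add_zero _⟩

lemma prod_graphIdeal₁_ne_bot {K : Type u} [Field K] [Algebra k K] (l : List (𝔠.B₁ →ₐ[k] K)) :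
    (l.map graphIdeal₁).prod ≠ ⊥ := by
  have := 𝔠.isDomain_R₁ K
  rw [← Ideal.zero_eq_bot]
  apply List.prod_ne_zero
  intro h
  obtain ⟨σ, -, hσ⟩ := List.mem_map.1 h
  exact RR.graphIdeal₁_ne_bot σ hσ

/-- `𝒪(-Σ σ) ⊗ E ≅ E(-Σ σ)` -/
theorem nonempty_iso_ptw {K : Type u} [Field K] [Algebra k K] (E : Triple 𝔠 K)
    (l : List (𝔠.B₁ →ₐ[k] K)) :
    Nonempty (Iso ((Idiv (l.map graphIdeal₁).prod).tensor E) (E.ptw l)) := by
  induction l with
  | nil =>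
    obtain ⟨e⟩ := nonempty_iso_Idiv_top (𝔠 := 𝔠) (A := K)
    rw [List.map_nil, List.prod_nil, Ideal.one_eq_top]
    exact ⟨((e.symm).tensor (Iso.refl E)).trans (unitTensor E)⟩
  | cons σ l ih =>
    obtain ⟨e⟩ := ih
    obtain ⟨e'⟩ := nonempty_iso_Idiv_mul (graphIdeal₁ σ) (l.map graphIdeal₁).prod
      (RR.graphIdeal₁_ne_bot σ) (prod_graphIdeal₁_ne_bot l)
    rw [List.map_cons, List.prod_cons, ptw_cons]
    set P := (l.map graphIdeal₁).prod
    exact ⟨((e'.symm.trans (tensorComm _ _)).tensor (Iso.refl E)).trans <|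
      (tensorAssoc (Idiv P) (Idiv (graphIdeal₁ σ)) E).trans <|
        ((Iso.refl (Idiv P)).tensor (tensorComm (Idiv (graphIdeal₁ σ)) E)).trans <|
          (tensorAssoc (Idiv P) E (Idiv (graphIdeal₁ σ))).symm.trans <|
            e.tensor (Iso.refl (Ipt σ))⟩

variable (𝔠)

/-- Every line bundle of degree `0` on `C_K`, `K` algebraically closed, is
`𝒪(m D_∞ - σ₁ - ... - σₙ)`, `n = m · deg D_∞`, `σᵢ ∈ W₁(K)`; `m` is uniform. -/
theorem exists_iso_ptw : ∃ m : ℕ, ∀ (K : Type u) [Field K] [IsAlgClosed K] [Algebra k K]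
    (T : Triple 𝔠 K), T.IsInvertible → T.chi = (unit 𝔠 K).chi →
    ∃ l : List (𝔠.B₁ →ₐ[k] K), l.length = m * 𝔠.degInf ∧
      Nonempty (Iso T ((Otw 𝔠 K m).ptw l)) := by
  obtain ⟨M, hM⟩ := RR.exists_uniform_vanishing 𝔠
  refine ⟨M, fun K _ _ _ T hT hχ => ?_⟩
  have hD := dual_isInvertible hT
  have hdeg : (dual T).deg = 0 := by
    rw [RR.deg_eq_neg_of_iso hT hD (tensorDualIso hT), deg, hχ, sub_self, neg_zero]
  have h1 := (hM K (dual T) hD hdeg.ge M le_rfl).2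
  have h1' : ((ihom T (Otw 𝔠 K M)).tensor (IP0 𝔠 K)).h1 = 0 := by
    rw [((ihomIso hT (Otw 𝔠 K M)).tensor (Iso.refl (IP0 𝔠 K))).h1_eq]
    exact h1
  obtain ⟨I, hI, ⟨e⟩⟩ := exists_iso_Idiv_tensor_Otw_of_h1 hT M h1'
  have hO := RR.isInvertible_Otw 𝔠 K M
  have c1 : T.chi = (Otw 𝔠 K M).chi - Module.finrank K (𝔠.R₁ K ⧸ I) := by
    rw [e.chi_eq, (tensorComm _ _).chi_eq, RR.chi_tensor_Idiv hO I hI]
  have c2 : (Otw 𝔠 K M).chi = (unit 𝔠 K).chi + M * 𝔠.degInf := by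
    rw [← (unitTensor (Otw 𝔠 K M)).chi_eq, RR.chi_tensor_Otw unit_isInvertible M]
  have hfr : Module.finrank K (𝔠.R₁ K ⧸ I) = M * 𝔠.degInf := by
    have : (Module.finrank K (𝔠.R₁ K ⧸ I) : ℤ) = M * 𝔠.degInf := by linarith
    exact_mod_cast this
  have := 𝔠.isDedekindDomain_R₁ K
  have fin : Module.Finite K (𝔠.R₁ K ⧸ I) :=
    RR.finite_quotient_of_ne_bot (𝔠.xA K) (𝔠.finite_xA K) I hI
  obtain ⟨s, hs, hcard⟩ := Points.exists_points_prod_eq₁ 𝔠 I fin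
  obtain ⟨l, rfl⟩ := Quot.exists_rep s
  have hs' : (l.map graphIdeal₁).prod = I := by
    rw [← hs]
    change _ = (Multiset.map _ (↑l : Multiset (𝔠.B₁ →ₐ[k] K))).prod
    rw [Multiset.map_coe, Multiset.prod_coe]
    rfl
  obtain ⟨e'⟩ := nonempty_iso_ptw (Otw 𝔠 K M) l
  rw [hs'] at e'
  exact ⟨l, by rw [← hfr, ← hcard]; rfl, ⟨e.trans e'⟩⟩

end X13

end Fermat.Agent.S25.RR
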