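/-
S25 / block X, section X11, task S25-X11: THE COVERING LEMMA.
Results of the other sections are cited from the skeleton (`RR.foo`).
-/
import Fermat.Agent.S25.RR.Base
import Fermat.Agent.S25.RR.FinCoh
import Fermat.Agent.S25.RR.IdivField
import Fermat.Agent.S25.RR.Otw
import Fermat.Agent.S25.RR.P0
import Fermat.Agent.S25.RR.Section
import Fermat.Agent.S25.RR.Vanish

set_option autoImplicit false

universe u

open scoped TensorProduct
open Function

namespace Fermat.Agent.S25.RR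

open Triple

variable {k : Type u} [Field k] {𝔠 : CurveCharts k}

/-! ### formal lemmas on `ptw` -/

theorem cover_ptw_append {A : Type u} [CommRing A] [Algebra k A] (T : Triple 𝔠 A)
    (l l' : List (𝔠.B₁ →ₐ[k] A)) : T.ptw (l ++ l') = (T.ptw l').ptw l := by
  induction l with
  | nil => rfl
  | cons σ l ih => rw [List.cons_append, ptw_cons, ptw_cons, ih]

theorem cover_nonempty_iso_ptw {A : Type u} [CommRing A] [Algebra k A] {T T' : Triple 𝔠 A}
    (e : Iso T T') (l : List (𝔠.B₁ →ₐ[k] A)) : Nonempty (Iso (T.ptw l) (T'.ptw l)) := by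
  induction l with
  | nil => exact ⟨e⟩
  | cons σ l ih =>
    obtain ⟨e'⟩ := ih
    exact ⟨e'.tensor (Iso.refl _)⟩

theorem cover_bijective_δ_of_iso {A : Type u} [CommRing A] [Algebra k A] {T T' : Triple 𝔠 A}
    (e : Iso T T') (h : Bijective T.δ) : Bijective T'.δ := by
  have h1 : ∀ z, T'.δ z = e.equiv₁ (T.δ (e.equiv₀.symm z)) := fun z => by
    rw [e.equiv₁_δ, LinearEquiv.apply_symm_apply]
  have h2 : (T'.δ : _ → _) = e.equiv₁ ∘ T.δ ∘ e.equiv₀.symm := funext h1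
  rw [h2]
  exact e.equiv₁.bijective.comp (h.comp e.equiv₀.symm.bijective)

theorem nonempty_iso_tensor_ptw {A : Type u} [CommRing A] [Algebra k A] (T E : Triple 𝔠 A)
    (l : List (𝔠.B₁ →ₐ[k] A)) : Nonempty (Iso (T.tensor (E.ptw l)) ((T.tensor E).ptw l)) := by
  induction l with
  | nil => exact ⟨Iso.refl _⟩
  | cons σ l ih =>
    obtain ⟨e⟩ := ih
    exact ⟨(tensorAssoc T (E.ptw l) (Ipt σ)).symm.trans (e.tensor (Iso.refl _))⟩

theorem cover_kpt_injective (K : Type u) [Field K] [Algebra k K] :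
    Injective (kpt (𝔠 := 𝔠) K) := by
  intro r r' h
  ext b
  have h1 := DFunLike.congr_fun h b
  exact (algebraMap k K).injective h1

variable [IsAlgClosed k]

theorem exists_point_step {K : Type u} [Field K] [Algebra k K] {T : Triple 𝔠 K}
    (hT : T.IsInvertible) (h1 : T.h1 = 0) (hchi : 0 < T.chi) (S : Finset (𝔠.B₁ →ₐ[k] k))
    (hS : T.deg < S.card) : ∃ r ∈ S, (T.tensor (Ipt (kpt K r))).h1 = 0 := by
  classical
  have h0 : 0 < T.h0 := by
    rw [chi, h1] at hchi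
    simpa using hchi
  have h0' : 0 < Module.finrank K T.H0 := h0
  obtain ⟨s, hs⟩ : ∃ s : T.H0, s ≠ 0 := by
    haveI : Nontrivial T.H0 := Module.nontrivial_of_finrank_pos h0'
    exact exists_ne 0
  by_contra hcon
  push_neg at hcon
  have hall : ∀ r ∈ S, s.1.1 ∈ graphIdeal₁ (kpt K r) • (⊤ : Submodule (𝔠.R₁ K) T.N₁) := by
    intro r hr
    by_contra hns
    exact hcon r hr (RR.h1_tensor_Ipt_eq_zero hT (kpt K r) h1 s hns)
  have hle := RR.card_zeros_le hT s hs (S.image (kpt K)) (by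
    intro σ hσ
    obtain ⟨r, hr, rfl⟩ := Finset.mem_image.1 hσ
    exact hall r hr)
  rw [Finset.card_image_of_injective _ (cover_kpt_injective K)] at hle
  omega

theorem exists_list_step {K : Type u} [Field K] [Algebra k K] (S : Finset (𝔠.B₁ →ₐ[k] k)) (n : ℕ)
    {T : Triple 𝔠 K} (hT : T.IsInvertible) (h1 : T.h1 = 0) (hchi : T.chi = n)
    (hS : T.deg < S.card) : ∃ l : List (𝔠.B₁ →ₐ[k] k), (∀ r ∈ l, r ∈ S) ∧ l.length = n ∧
      Bijective (T.ptw (l.map (kpt K))).δ := by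
  induction n generalizing T with
  | zero =>
    refine ⟨[], by simp, rfl, ?_⟩
    have hF := RR.finCoh hT
    have h0 : T.h0 = 0 := by
      rw [chi, h1] at hchi
      simpa using hchi
    exact ⟨(RR.h0_eq_zero_iff hF).1 h0, (RR.h1_eq_zero_iff hF).1 h1⟩
  | succ n ih =>
    obtain ⟨r, hr, hr1⟩ := exists_point_step hT h1 (by rw [hchi]; positivity) S hS
    have hT' : (T.tensor (Ipt (kpt K r))).IsInvertible :=
      hT.tensor (RR.isInvertible_Ipt _)
    have hchi' : (T.tensor (Ipt (kpt K r))).chi = (n : ℤ) := by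
      rw [RR.chi_tensor_Ipt hT, hchi]
      push_cast
      ring
    have hdeg : (T.tensor (Ipt (kpt K r))).deg < S.card := by
      have : (T.tensor (Ipt (kpt K r))).deg = T.deg - 1 := by
        rw [Triple.deg, Triple.deg, RR.chi_tensor_Ipt hT]
        ring
      omega
    obtain ⟨l, hl, hlen, hbij⟩ := ih hT' hr1 hchi' hdeg
    refine ⟨l ++ [r], ?_, by simp [hlen], ?_⟩
    · intro r' hr'
      rcases List.mem_append.1 hr' with h | h
      · exact hl r' h
      · rw [List.mem_singleton.1 h]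
        exact hr
    · rw [List.map_append, cover_ptw_append]
      exact hbij

variable (𝔠)

theorem cover_exists_finset (N : ℕ) : ∃ S : Finset (𝔠.B₁ →ₐ[k] k), S.card = N := by
  haveI : Infinite (𝔠.B₁₂ →ₐ[k] k) := Points.infinite_points₁₂ 𝔠
  haveI : Infinite (𝔠.B₁ →ₐ[k] k) := Infinite.of_injective _ (Points.restr₁_injective 𝔠 (A := k))
  exact Infinite.exists_subset_card_eq _ N

/-- COVERING LEMMA.  Finitely many twists `F_l = 𝒪(m D_∞ - Σ_{r ∈ l} r)` of degree `g`, defined over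
`k`, such that for every field `K` and every `T` of degree `0` on `C_K` some `T ⊗ F_l (-P₀)` has no
cohomology. -/
theorem exists_cover : ∃ (m : ℕ) (L : Finset (List (𝔠.B₁ →ₐ[k] k))),
    ∀ (K : Type u) [Field K] [Algebra k K] (T : Triple 𝔠 K), T.IsInvertible →
      T.chi = (unit 𝔠 K).chi →
      ∃ l ∈ L, Bijective ((T.tensor (Ftw K m l)).tensor (IP0 𝔠 K)).δ := by
  classical
  obtain ⟨m, hm⟩ := RR.exists_uniform_vanishing 𝔠
  obtain ⟨S, hS⟩ := cover_exists_finset 𝔠 (m * 𝔠.degInf)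
  let n : ℕ := ((m * 𝔠.degInf : ℕ) - (𝔠.genus : ℤ)).toNat
  let L : Finset (List (𝔠.B₁ →ₐ[k] k)) :=
    (Finset.univ : Finset (List.Vector S n)).image (fun v => v.1.map Subtype.val)
  refine ⟨m, L, ?_⟩
  intro K _ _ T hT hchi
  have hdeg0 : (0 : ℤ) ≤ T.deg := by rw [Triple.deg, hchi, sub_self]
  obtain ⟨-, hv⟩ := hm K T hT hdeg0 m le_rfl
  have hTO : (T.tensor (Otw 𝔠 K m)).IsInvertible := hT.tensor (RR.isInvertible_Otw 𝔠 K m)
  have hT₀ : ((T.tensor (Otw 𝔠 K m)).tensor (IP0 𝔠 K)).IsInvertible :=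
    hTO.tensor RR.isInvertible_IP0
  have hchi₀ : ((T.tensor (Otw 𝔠 K m)).tensor (IP0 𝔠 K)).chi =
      (m * 𝔠.degInf : ℕ) - (𝔠.genus : ℤ) := by
    rw [RR.chi_tensor_IP0 hTO, RR.chi_tensor_Otw hT, hchi, RR.chi_unit]
    push_cast
    ring
  have hnn : (0 : ℤ) ≤ (m * 𝔠.degInf : ℕ) - (𝔠.genus : ℤ) := by
    rw [← hchi₀, chi, hv]
    simp
  have hchi₀' : ((T.tensor (Otw 𝔠 K m)).tensor (IP0 𝔠 K)).chi = (n : ℤ) := by
    rw [hchi₀]
    exact (Int.toNat_of_nonneg hnn).symm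
  have hdeg : ((T.tensor (Otw 𝔠 K m)).tensor (IP0 𝔠 K)).deg < S.card := by
    rw [Triple.deg, hchi₀, RR.chi_unit, hS]
    omega
  obtain ⟨l, hl, hlen, hbij⟩ := exists_list_step S n hT₀ hv hchi₀' hdeg
  refine ⟨l, ?_, ?_⟩
  · refine Finset.mem_image.2 ⟨⟨l.attachWith (· ∈ S) hl, by simpa using hlen⟩,
      Finset.mem_univ _, ?_⟩
    simp
  · -- move the factors
    obtain ⟨e₁⟩ := nonempty_iso_tensor_ptw T (Otw 𝔠 K m) (l.map (kpt K))
    obtain ⟨e₂⟩ := nonempty_iso_tensor_ptw (IP0 𝔠 K) (T.tensor (Otw 𝔠 K m)) (l.map (kpt K))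
    obtain ⟨e₃⟩ := cover_nonempty_iso_ptw
      (tensorComm (IP0 𝔠 K) (T.tensor (Otw 𝔠 K m))) (l.map (kpt K))
    have e : Iso (((T.tensor (Otw 𝔠 K m)).tensor (IP0 𝔠 K)).ptw (l.map (kpt K)))
        ((T.tensor (Ftw K m l)).tensor (IP0 𝔠 K)) :=
      (((e₁.tensor (Iso.refl (IP0 𝔠 K))).trans
        (tensorComm _ _)).trans (e₂.trans e₃)).symm
    exact cover_bijective_δ_of_iso e hbij

end Fermat.Agent.S25.RR
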