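/-
S25 / block X, section X14: `ptw` / `Ftw` are invertible, rigid, compatible with base change; degree.
Proofs: helper171.
-/
import Fermat.Agent.S25.RR.Degree
import Fermat.Agent.S25.Charts.Idiv
import Fermat.Agent.S25.Charts.IdivMul
import Fermat.Agent.S25.Charts.Otw
import Fermat.Agent.S25.Triple.TensorBC
import Fermat.Agent.S25.Triple.BCLemmas

set_option autoImplicit false
set_option linter.unusedSectionVars false

universe u

open scoped TensorProduct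
open Function

namespace Fermat.Agent.S25.RR

open Triple

variable {k : Type u} [Field k] {𝔠 : CurveCharts k}

section X14

variable [IsAlgClosed k] {A A' : Type u} [CommRing A] [Algebra k A] [CommRing A'] [Algebra k A']

theorem isInvertible_Ipt' (σ : 𝔠.B₁ →ₐ[k] A) : (Ipt σ).IsInvertible :=
  Idiv_isInvertible (isDiv_graphIdeal₁ σ)

theorem isRigid_Ipt (σ : 𝔠.B₁ →ₐ[k] A) : (Ipt σ).IsRigid :=
  Idiv_isRigid (isDiv_graphIdeal₁ σ)

theorem isBC_Ipt (φ : A →ₐ[k] A') (σ : 𝔠.B₁ →ₐ[k] A) : IsBC φ (Ipt σ) (Ipt (φ.comp σ)) := by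
  have h := Idiv_bc (isDiv_graphIdeal₁ σ) φ
  rw [graphIdeal₁_map] at h
  exact h

theorem isInvertible_ptw' {T : Triple 𝔠 A} (hT : T.IsInvertible) (l : List (𝔠.B₁ →ₐ[k] A)) :
    (T.ptw l).IsInvertible := by
  induction l with
  | nil => exact hT
  | cons σ l ih => exact ih.tensor (isInvertible_Ipt' σ)

theorem isRigid_ptw {T : Triple 𝔠 A} (hT : T.IsRigid) (l : List (𝔠.B₁ →ₐ[k] A)) :
    (T.ptw l).IsRigid := by
  induction l with
  | nil => exact hT
  | cons σ l ih => exact ih.tensor (isRigid_Ipt σ)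

theorem isBC_ptw (φ : A →ₐ[k] A') {T : Triple 𝔠 A} {T' : Triple 𝔠 A'} (h : IsBC φ T T')
    (l : List (𝔠.B₁ →ₐ[k] A)) : IsBC φ (T.ptw l) (T'.ptw (l.map fun σ => φ.comp σ)) := by
  induction l with
  | nil => exact h
  | cons σ l ih =>
    obtain ⟨b⟩ := ih
    obtain ⟨b'⟩ := isBC_Ipt φ σ
    exact ⟨b.tensor b'⟩

theorem comp_kpt (φ : A →ₐ[k] A') (r : 𝔠.B₁ →ₐ[k] k) : φ.comp (kpt A r) = kpt A' r := by
  ext b
  show φ (algebraMap k A (r b)) = algebraMap k A' (r b)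
  exact φ.commutes _

variable (𝔠)

theorem isInvertible_Ftw (A : Type u) [CommRing A] [Algebra k A] (m : ℕ)
    (l : List (𝔠.B₁ →ₐ[k] k)) : (Ftw A m l).IsInvertible :=
  isInvertible_ptw' (Otw_isInvertible m) _

theorem isRigid_Ftw (A : Type u) [CommRing A] [Algebra k A] (m : ℕ)
    (l : List (𝔠.B₁ →ₐ[k] k)) : (Ftw A m l).IsRigid :=
  isRigid_ptw (Otw_isRigid m) _

theorem isBC_Ftw (φ : A →ₐ[k] A') (m : ℕ) (l : List (𝔠.B₁ →ₐ[k] k)) :
    IsBC φ (Ftw A m l) (Ftw A' m l) := by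
  have h := isBC_ptw φ (Otw_bc (𝔠 := 𝔠) m φ) (l.map (kpt A))
  have h2 : ((l.map (kpt A)).map fun σ => φ.comp σ) = l.map (kpt A') := by
    rw [List.map_map]
    exact List.map_congr_left fun r _ => comp_kpt φ r
  rw [h2] at h
  exact h

theorem nonempty_iso_const_Ftw (A : Type u) [CommRing A] [Algebra k A] (m : ℕ)
    (l : List (𝔠.B₁ →ₐ[k] k)) : Nonempty (Iso ((Ftw k m l).const A) (Ftw A m l)) := by
  obtain ⟨b⟩ := isBC_Ftw 𝔠 (Algebra.ofId k A) m l
  exact ⟨(bcData (Algebra.ofId k A) (Ftw k m l)).unique b⟩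

theorem deg_Ftw (K : Type u) [Field K] [Algebra k K] (m : ℕ) (l : List (𝔠.B₁ →ₐ[k] k)) :
    (Ftw K m l).deg = m * 𝔠.degInf - l.length := by
  rw [Ftw, deg_ptw (Otw_isInvertible m), deg_Otw, List.length_map]

end X14

end Fermat.Agent.S25.RR
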