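/-
S25 / block X: everything of `RR/*` (Riemann-Roch package for triples over fields and twists).
All files below are free of WIP imports.
-/
import Fermat.Agent.S25.RR.Cover
import Fermat.Agent.S25.RR.Effective
import Fermat.Agent.S25.RR.Ftw
import Fermat.Agent.S25.RR.SectionDiv
import Fermat.Agent.S25.RR.Degree
import Fermat.Agent.S25.RR.Vanish
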